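/-
Project BAD, block LevelQ, node LQ-VC: the valuative criterion for membership in a chart
(`chart S x` = integral closure of `S[x]` in `F`) and its first consequences.
-/
import Mathlib
import Fermat.Agent.S18.Defs
import Fermat.Agent.S18.Chart.Const
import Fermat.Agent.BAD.LevelQ.Defs

set_option autoImplicit false

noncomputable section

namespace Fermat.Agent.BAD.LevelQ

open Polynomial IntermediateField Fermat.Agent.S18

variable {K₀ F : Type*} [Field K₀] [Field F] [Algebra K₀ F]

section VAL

/-- a valuation ring contains `S[x]` iff it contains `S` and `x`. -/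
theorem polyRing_le_valuationSubring_iff (S : Subring K₀) (x : F) (W : ValuationSubring F) :
    (polyRing S x : Set F) ⊆ W.toSubring ↔ (∀ a ∈ S, algebraMap K₀ F a ∈ W) ∧ x ∈ W := by
  constructor
  · intro h
    refine ⟨fun a ha => h ?_, h ?_⟩
    · exact (mem_polyRing_iff S x _).mpr ⟨C a, fun i => by
        rw [coeff_C]; split_ifs
        · exact ha
        · exact S.zero_mem, by simp⟩
    · exact (mem_polyRing_iff S x _).mpr ⟨X, fun i => by
        rw [coeff_X]; split_ifs
        · exact S.one_mem
        · exact S.zero_mem, by simp⟩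
  · rintro ⟨hS, hx⟩ y hy
    obtain ⟨p, hp, rfl⟩ := (mem_polyRing_iff S x y).mp hy
    rw [aeval_eq_sum_range]
    refine W.toSubring.sum_mem fun i _ => ?_
    rw [Algebra.smul_def]
    exact W.mul_mem _ _ (hS _ (hp i)) (W.pow_mem hx i)

theorem mem_chart_iff_forall_valuationSubring (S : Subring K₀) (x z : F) :
    z ∈ chart S x ↔ ∀ W : ValuationSubring F, (∀ a ∈ S, algebraMap K₀ F a ∈ W) → x ∈ W → z ∈ W := by
  have key := iInf_valuationSubring_superset (K := F) (s := (polyRing S x : Set F))
  rw [Subring.closure_eq] at key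
  change z ∈ (integralClosure (polyRing S x) F).toSubring ↔ _
  rw [← key, Subring.mem_iInf]
  constructor
  · intro h W hS hx
    exact h ⟨W, (polyRing_le_valuationSubring_iff S x W).mpr ⟨hS, hx⟩⟩
  · rintro h ⟨W, hW⟩
    obtain ⟨hS, hx⟩ := (polyRing_le_valuationSubring_iff S x W).mp hW
    exact h W hS hx

theorem mem_chart_mul {S : Subring K₀} {a b : F} (h : a ∈ chart S b) : a ∈ chart S (a * b) := by
  rw [mem_chart_iff_forall_valuationSubring] at h ⊢
  intro W hS hab
  by_contra ha
  have ha' : a⁻¹ ∈ W := (W.mem_or_inv_mem a).resolve_left ha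
  have ha0 : a ≠ 0 := by
    rintro rfl
    exact ha W.zero_mem
  have hb : b ∈ W := by
    have := W.mul_mem _ _ hab ha'
    rwa [mul_comm a b, mul_assoc, mul_inv_cancel₀ ha0, mul_one] at this
  exact ha (h W hS hb)

theorem inv_mem_chart_inv_mul {S : Subring K₀} {a b : F} (hab : a * b ≠ 0) (h : b ∈ chart S a) :
    a⁻¹ ∈ chart S (a * b)⁻¹ := by
  rw [mem_chart_iff_forall_valuationSubring] at h ⊢
  intro W hS hW
  by_contra ha
  have ha' : a ∈ W := (W.mem_or_inv_mem a).resolve_right ha
  have hb : b ∈ W := h W hS ha'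
  have hb0 : b ≠ 0 := right_ne_zero_of_mul hab
  apply ha
  have := W.mul_mem _ _ hb hW
  rwa [mul_inv, mul_comm a⁻¹, ← mul_assoc, mul_inv_cancel₀ hb0, one_mul] at this

theorem chart_le_chart {S : Subring K₀} {x x' : F} (h : x ∈ chart S x') :
    chart S x ≤ chart S x' := by
  intro z hz
  rw [mem_chart_iff_forall_valuationSubring] at h hz ⊢
  intro W hS hx'
  exact hz W hS (h W hS hx')

end VAL

end Fermat.Agent.BAD.LevelQ
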