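/-
Project BAD, block LevelQ, node LQ-CRD (proofs helper276): change of coordinate for complete
families of vertical valuations.  Self-contained on top of `S18/Chart/{Const,Coord}` and
`BAD/LevelQ/Abs/Valuative`; auxiliary lemmas carry the prefix `change_`.
-/
import Mathlib
import Fermat.Agent.S18.Defs
import Fermat.Agent.S18.Chart.Const
import Fermat.Agent.S18.Chart.Coord
import Fermat.Agent.BAD.LevelQ.Defs
import Fermat.Agent.BAD.LevelQ.Abs.Valuative

set_option autoImplicit false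

noncomputable section

namespace Fermat.Agent.BAD.LevelQ

open Polynomial IntermediateField Fermat.Agent.S18

variable {K₀ F : Type*} [Field K₀] [Field F] [Algebra K₀ F]

section CRDAux

/-- a polynomial with coefficients in a valuation subring lifts. -/
theorem change_exists_lift (A : ValuationSubring K₀) (p : K₀[X]) (hp : ∀ i, p.coeff i ∈ A) :
    ∃ P : A[X], P.map A.subtype = p := by
  have h : p ∈ Polynomial.lifts A.subtype :=
    (Polynomial.lifts_iff_coeff_lifts p).2 fun n => ⟨⟨p.coeff n, hp n⟩, rfl⟩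
  exact (Polynomial.mem_lifts p).1 h

/-- **Key lemma**: transcendence of the residue is inherited along integral dependence.
General form: `A → W` is any local homomorphism of valuation rings. -/
theorem change_isMCoord_of_mem_chart (A : ValuationSubring K₀) (W : ValuationSubring F)
    (hc : ∀ a ∈ A, algebraMap K₀ F a ∈ W)
    (hloc : ∀ a ∈ A, A.valuation a < 1 → W.valuation (algebraMap K₀ F a) < 1)
    {x x₁ : F} (hx₁ : IsMCoord A W x₁) (hxW : x ∈ W) (h1 : x₁ ∈ chart A.toSubring x) :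
    IsMCoord A W x := by
  classical
  let f : A →+* W := ((algebraMap K₀ F).comp A.subtype).codRestrict W (fun a => hc a a.2)
  have : IsLocalHom f := ⟨fun a ha => by
    by_contra hna
    have h2 : a ∈ IsLocalRing.maximalIdeal A := (IsLocalRing.mem_maximalIdeal a).2 hna
    have h3 := hloc a a.2 ((A.valuation_lt_one_iff a).1 h2)
    have h4 : f a ∈ IsLocalRing.maximalIdeal W := (W.valuation_lt_one_iff (f a)).2 h3
    exact (IsLocalRing.mem_maximalIdeal _).1 h4 ha⟩
  let _ : Algebra (IsLocalRing.ResidueField A) (IsLocalRing.ResidueField W) :=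
    (IsLocalRing.ResidueField.map f).toAlgebra
  -- evaluation formulas
  have key : ∀ (t : W) (P : A[X]), IsLocalRing.residue W (eval₂ f t P) =
      aeval (IsLocalRing.residue W t) (P.map (IsLocalRing.residue A)) := by
    intro t P
    rw [Polynomial.hom_eval₂, aeval_def, eval₂_map]
    rfl
  have key2 : ∀ (t : W) (P : A[X]), ((eval₂ f t P : W) : F) = aeval (t : F) (P.map A.subtype) := by
    intro t P
    have := Polynomial.hom_eval₂ P f W.subtype t
    rw [aeval_def, eval₂_map]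
    exact this
  have key3 : ∀ (t : W) (P : A[X]), W.valuation (aeval (t : F) (P.map A.subtype)) < 1 ↔
      aeval (IsLocalRing.residue W t) (P.map (IsLocalRing.residue A)) = 0 := by
    intro t P
    rw [← key, ← key2, ← W.valuation_lt_one_iff, IsLocalRing.residue_eq_zero_iff]
  have key4 : ∀ (P : A[X]), P.map (IsLocalRing.residue A) = 0 ↔
      ∀ i, A.valuation ((P.map A.subtype).coeff i) < 1 := by
    intro P
    rw [Polynomial.ext_iff]
    refine forall_congr' fun i => ?_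
    rw [coeff_map, coeff_map, coeff_zero, IsLocalRing.residue_eq_zero_iff,
      A.valuation_lt_one_iff]
    rfl
  -- the residue of `x₁` is transcendental
  have hT1 : Transcendental (IsLocalRing.ResidueField A)
      (IsLocalRing.residue W ⟨x₁, hx₁.mem⟩) := by
    rw [transcendental_iff]
    intro pbar hpbar
    obtain ⟨P, rfl⟩ := Polynomial.map_surjective (IsLocalRing.residue A)
      IsLocalRing.residue_surjective pbar
    rw [key4]
    refine hx₁.transc _ (fun i => ?_) ((key3 ⟨x₁, hx₁.mem⟩ P).2 hpbar)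
    rw [coeff_map]
    exact (P.coeff i).2
  refine ⟨hxW, fun p hp hlt => ?_⟩
  obtain ⟨P, rfl⟩ := change_exists_lift A p hp
  rw [← key4]
  by_contra hP0
  have h0 := (key3 ⟨x, hxW⟩ P).1 hlt
  have hxint : IsIntegral (IsLocalRing.ResidueField A) (IsLocalRing.residue W ⟨x, hxW⟩) :=
    isAlgebraic_iff_isIntegral.1 ⟨_, hP0, h0⟩
  apply hT1
  rw [isAlgebraic_iff_isIntegral]
  -- `polyRing → W → κ`
  have hle : ∀ r : polyRing A.toSubring x, (r : F) ∈ W := fun r =>
    (polyRing_le_valuationSubring_iff A.toSubring x W).2 ⟨hc, hxW⟩ r.2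
  let incl : polyRing A.toSubring x →+* W := (polyRing A.toSubring x).subtype.codRestrict W hle
  let g : polyRing A.toSubring x →+* IsLocalRing.ResidueField W :=
    (IsLocalRing.residue W).comp incl
  have hg : ∀ r, g r ∈ integralClosure (IsLocalRing.ResidueField A)
      (IsLocalRing.ResidueField W) := by
    intro r
    obtain ⟨p, hp, hpr⟩ := (mem_polyRing_iff A.toSubring x r).1 r.2
    obtain ⟨P, rfl⟩ := change_exists_lift A p hp
    have h5 : incl r = eval₂ f ⟨x, hxW⟩ P := by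
      apply Subtype.ext
      rw [key2]
      exact hpr.symm
    change IsLocalRing.residue W (incl r) ∈ _
    rw [h5, key]
    exact (Algebra.adjoin_le (S := integralClosure (IsLocalRing.ResidueField A)
      (IsLocalRing.ResidueField W)) (Set.singleton_subset_iff.2 hxint))
      (Polynomial.aeval_mem_adjoin_singleton _ _)
  obtain ⟨Q, hQm, hQ⟩ := (mem_chart_iff_isIntegral _ _ _).1 h1
  have h6 : eval₂ incl ⟨x₁, hx₁.mem⟩ Q = 0 := by
    apply Subtype.ext
    have := Polynomial.hom_eval₂ Q incl W.subtype ⟨x₁, hx₁.mem⟩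
    exact this.trans hQ
  have h7 : IsIntegral (integralClosure (IsLocalRing.ResidueField A)
      (IsLocalRing.ResidueField W)) (IsLocalRing.residue W ⟨x₁, hx₁.mem⟩) := by
    refine ⟨Q.map (g.codRestrict _ hg), hQm.map _, ?_⟩
    rw [eval₂_map]
    have := Polynomial.hom_eval₂ Q incl (IsLocalRing.residue W) ⟨x₁, hx₁.mem⟩
    rw [h6, map_zero] at this
    exact this.symm
  exact isIntegral_trans _ h7


theorem change_val_eq_one_iff {K : Type*} [Field K] (A : ValuationSubring K) (a : K) :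
    A.valuation a = 1 ↔ a ∈ A ∧ a⁻¹ ∈ A ∧ a ≠ 0 := by
  constructor
  · intro h
    refine ⟨(A.valuation_le_one_iff a).1 h.le, (A.valuation_le_one_iff _).1 ?_, ?_⟩
    · rw [map_inv₀, h, inv_one]
    · rintro rfl
      simp at h
  · rintro ⟨h1, h2, h3⟩
    have h1' := (A.valuation_le_one_iff a).2 h1
    have h2' := (A.valuation_le_one_iff _).2 h2
    rw [map_inv₀] at h2'
    have hpos : 0 < A.valuation a := zero_lt_iff.2 ((_root_.map_ne_zero _).2 h3)
    exact le_antisymm h1' ((inv_le_one₀ hpos).1 h2')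

theorem change_val_lt_one_iff {K : Type*} [Field K] (A : ValuationSubring K) (a : K) :
    A.valuation a < 1 ↔ a = 0 ∨ a⁻¹ ∉ A := by
  rcases eq_or_ne a 0 with rfl | ha
  · simp
  · have hpos : 0 < A.valuation a := zero_lt_iff.2 ((_root_.map_ne_zero _).2 ha)
    rw [← A.valuation_le_one_iff, map_inv₀, inv_le_one₀ hpos, not_le]
    simp [ha]

theorem change_comap_val_lt_one (W : ValuationSubring F) (a : K₀) :
    (W.comap (algebraMap K₀ F)).valuation a < 1 ↔ W.valuation (algebraMap K₀ F a) < 1 := by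
  rw [change_val_lt_one_iff, change_val_lt_one_iff, ValuationSubring.mem_comap, map_inv₀,
    map_eq_zero]

theorem change_comap_val_eq_one (W : ValuationSubring F) (a : K₀) :
    (W.comap (algebraMap K₀ F)).valuation a = 1 ↔ W.valuation (algebraMap K₀ F a) = 1 := by
  rw [change_val_eq_one_iff, change_val_eq_one_iff, ValuationSubring.mem_comap,
    ValuationSubring.mem_comap, map_inv₀, Ne, Ne, map_eq_zero]

/-- valuation rings are integrally closed. -/
theorem change_mem_of_monic {E : Type*} [Field E] [Algebra E F] (W : ValuationSubring F) {y : F}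
    (p : E[X]) (hp : p.Monic) (hc : ∀ i, algebraMap E F (p.coeff i) ∈ W) (h : aeval y p = 0) :
    y ∈ W := by
  have h1 : p.map (algebraMap E F) ∈ Polynomial.lifts W.subtype :=
    (Polynomial.lifts_iff_coeff_lifts _).2 fun n => ⟨⟨_, hc n⟩, by simp⟩
  obtain ⟨q, hq, -, hqm⟩ := Polynomial.lifts_and_degree_eq_and_monic h1 (hp.map _)
  have h2 : IsIntegral W y := by
    refine ⟨q, hqm, ?_⟩
    have h3 : eval₂ (algebraMap W F) y q = eval₂ (RingHom.id F) y (q.map W.subtype) := by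
      rw [eval₂_map]
      rfl
    rw [h3, hq, eval₂_map, RingHom.id_comp]
    exact h
  obtain ⟨z, rfl⟩ := (IsIntegrallyClosed.isIntegral_iff (R := W) (K := F)).mp h2
  exact z.2

theorem change_aeval_mem (A : ValuationSubring K₀) (W : ValuationSubring F)
    (hc : ∀ a ∈ A, algebraMap K₀ F a ∈ W) {x : F} (hx : x ∈ W) {p : K₀[X]}
    (hp : ∀ i, p.coeff i ∈ A) : aeval x p ∈ W :=
  (polyRing_le_valuationSubring_iff A.toSubring x W).2 ⟨hc, hx⟩
    ((mem_polyRing_iff A.toSubring x _).2 ⟨p, hp, rfl⟩)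

theorem change_valuation_aeval_eq_one {A : ValuationSubring K₀} {W : ValuationSubring F} {x : F}
    (hx : IsMCoord A W x) (hc : ∀ a ∈ A, algebraMap K₀ F a ∈ W) {p : K₀[X]}
    (hp : ∀ i, p.coeff i ∈ A) (hp1 : ∃ i, A.valuation (p.coeff i) = 1) :
    W.valuation (aeval x p) = 1 := by
  have h1 : W.valuation (aeval x p) ≤ 1 :=
    (W.valuation_le_one_iff _).2 (change_aeval_mem A W hc hx.mem hp)
  rcases lt_or_eq_of_le h1 with h | h
  · obtain ⟨i, hi⟩ := hp1
    exact absurd (hx.transc p hp h i) (by rw [hi]; exact lt_irrefl _)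
  · exact h

theorem change_aeval_mem_adjoin (x : F) (p : K₀[X]) : aeval x p ∈ K₀⟮x⟯ :=
  IntermediateField.algebra_adjoin_le_adjoin K₀ {x} (Polynomial.aeval_mem_adjoin_singleton _ _)

theorem change_exists_frac {A₀ : ValuationSubring K₀} {ϖ₀ : K₀} {W : ValuationSubring F} {x : F}
    (h₀ : IsUnif A₀ ϖ₀) (hx : IsMCoord A₀ W x)
    (hc : ∀ a ∈ A₀, algebraMap K₀ F a ∈ W) (hϖ : W.valuation (algebraMap K₀ F ϖ₀) < 1) {z : F}
    (hz : z ∈ K₀⟮x⟯) (hzW : z ∈ W) :
    ∃ p d : K₀[X], (∀ i, p.coeff i ∈ A₀) ∧ (∀ i, d.coeff i ∈ A₀) ∧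
      (∃ i, A₀.valuation (d.coeff i) = 1) ∧ z * aeval x d = aeval x p := by
  have hone : ∀ i, (1 : K₀[X]).coeff i ∈ A₀ := by
    intro i
    rw [coeff_one]
    split_ifs
    exacts [A₀.one_mem, A₀.zero_mem]
  obtain ⟨r, s, rfl⟩ := (mem_adjoin_simple_iff K₀ z).1 hz
  by_cases hs : aeval x s = 0
  · exact ⟨0, 1, by simp [A₀.zero_mem], hone, ⟨0, by simp⟩, by simp [hs]⟩
  have hs0 : s ≠ 0 := by
    rintro rfl
    simp at hs
  by_cases hr0 : r = 0
  · subst hr0
    exact ⟨0, 1, by simp [A₀.zero_mem], hone, ⟨0, by simp⟩, by simp⟩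
  obtain ⟨n, d, hsd, hd, i, hi, hi0⟩ := IsCoord.exists_primitive h₀ s hs0
  obtain ⟨m, p₀, hrp, hp₀, j, hj, hj0⟩ := IsCoord.exists_primitive h₀ r hr0
  have hd1 : W.valuation (aeval x d) = 1 := change_valuation_aeval_eq_one hx hc hd
    ⟨i, (change_val_eq_one_iff _ _).2 ⟨hd i, hi, hi0⟩⟩
  have hp1 : W.valuation (aeval x p₀) = 1 := change_valuation_aeval_eq_one hx hc hp₀
    ⟨j, (change_val_eq_one_iff _ _).2 ⟨hp₀ j, hj, hj0⟩⟩
  have hϖ0 : ϖ₀ ≠ 0 := CoordAux.unif_ne_zero h₀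
  have hϖF : algebraMap K₀ F ϖ₀ ≠ 0 := (_root_.map_ne_zero _).2 hϖ0
  have hd0 : aeval x d ≠ 0 := by
    intro h
    rw [h, map_zero] at hd1
    exact zero_ne_one hd1
  have hz' : aeval x r / aeval x s = algebraMap K₀ F ϖ₀ ^ (m - n) * aeval x p₀ / aeval x d := by
    rw [hsd, hrp, map_mul, map_mul, aeval_C, aeval_C, map_zpow₀, map_zpow₀, zpow_sub₀ hϖF]
    field_simp
  have hmn : 0 ≤ m - n := by
    by_contra hlt
    have h1 := (W.valuation_le_one_iff _).2 hzW
    rw [hz', map_div₀, map_mul, hd1, hp1, map_zpow₀, mul_one, div_one] at h1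
    have hpos : 0 < W.valuation (algebraMap K₀ F ϖ₀) := zero_lt_iff.2 ((_root_.map_ne_zero _).2 hϖF)
    exact absurd h1 (not_le.2 (one_lt_zpow_of_neg₀ hpos hϖ (not_le.1 hlt)))
  refine ⟨C (ϖ₀ ^ (m - n)) * p₀, d, fun i => ?_, hd,
    ⟨i, (change_val_eq_one_iff _ _).2 ⟨hd i, hi, hi0⟩⟩, ?_⟩
  · rw [coeff_C_mul]
    exact A₀.mul_mem _ _ (CoordAux.unif_zpow_mem h₀ hmn) (hp₀ i)
  · rw [hz', map_mul, aeval_C, map_zpow₀]
    field_simp

theorem change_finite {x x₁ : F} (hfin : FiniteDimensional K₀⟮x₁⟯ F)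
    (hint : IsIntegral K₀⟮x⟯ x₁) : FiniteDimensional K₀⟮x⟯ F := by
  have h1 : FiniteDimensional K₀⟮x⟯ K₀⟮x⟯⟮x₁⟯ := IntermediateField.adjoin.finiteDimensional hint
  have hle : K₀⟮x₁⟯ ≤ (K₀⟮x⟯⟮x₁⟯).restrictScalars K₀ := by
    rw [adjoin_simple_le_iff, IntermediateField.mem_restrictScalars]
    exact mem_adjoin_simple_self K₀⟮x⟯ x₁
  have h2 : Module.Finite K₀⟮x⟯⟮x₁⟯ F := by
    obtain ⟨s, hs⟩ := hfin.fg_top
    refine ⟨⟨s, ?_⟩⟩
    rw [eq_top_iff]
    intro y _
    have hy : y ∈ Submodule.span K₀⟮x₁⟯ (s : Set F) := hs ▸ Submodule.mem_top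
    induction hy using Submodule.span_induction with
    | mem y h => exact Submodule.subset_span h
    | zero => exact zero_mem _
    | add y z _ _ hy hz => exact add_mem (hy trivial) (hz trivial)
    | smul a y _ hy =>
      have h3 : a • y = (⟨(a : F), hle a.2⟩ : K₀⟮x⟯⟮x₁⟯) • y := by
        rw [Algebra.smul_def, Algebra.smul_def]
        rfl
      rw [h3]
      exact Submodule.smul_mem _ _ (hy trivial)
  exact Module.Finite.trans K₀⟮x⟯⟮x₁⟯ F


theorem change_isIntegral_adjoin {A : Subring K₀} {x x₁ : F} (h1 : x₁ ∈ chart A x) :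
    IsIntegral K₀⟮x⟯ x₁ := by
  refine isIntegral_of_forall_exists_algebraMap (fun r => ?_) ((mem_chart_iff_isIntegral _ _ _).1 h1)
  obtain ⟨p, -, hp⟩ := (mem_polyRing_iff A x r).1 r.2
  exact ⟨⟨r, hp ▸ change_aeval_mem_adjoin x p⟩, rfl⟩

variable {A₀ : ValuationSubring K₀} {ϖ₀ : K₀} {ι : Type*} {V : ι → ValuationSubring F}
variable {x x₁ : F}

/-- every valuation ring containing `A₀[x]` and the inverses of the primitive polynomials in `x`
contains `⋂ V c`. -/
theorem change_claim [Nonempty ι] (hV : IsMVert A₀ ϖ₀ V K₀⟮x₁⟯)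
    (hx₁ : ∀ c, IsMCoord A₀ (V c) x₁) (hx : ∀ c, IsMCoord A₀ (V c) x)
    (h1 : x₁ ∈ chart A₀.toSubring x) (h3 : x ∈ chart A₀.toSubring x₁) (W : ValuationSubring F)
    (hW0 : ∀ a ∈ A₀, algebraMap K₀ F a ∈ W) (hWx : x ∈ W)
    (hWd : ∀ d : K₀[X], (∀ i, d.coeff i ∈ A₀) → (∃ i, A₀.valuation (d.coeff i) = 1) →
      (aeval x d)⁻¹ ∈ W)
    (y : F) (hy : ∀ c, y ∈ V c) : y ∈ W := by
  obtain ⟨c₀⟩ := ‹Nonempty ι›
  have hle : A₀.toSubring ≤ (W.comap (algebraMap K₀ F)).toSubring := fun a ha => hW0 a ha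
  have hWx₁ : x₁ ∈ W := (mem_chart_iff_forall_valuationSubring _ _ _).1 h1 W hW0 hWx
  -- (i) the residue of `x` at `W` is transcendental
  have hxW : IsMCoord (W.comap (algebraMap K₀ F)) W x := by
    refine ⟨hWx, fun g _ hlt i => ?_⟩
    rw [change_comap_val_lt_one]
    by_cases hg : g = 0
    · simp [hg]
    obtain ⟨n, p₀, hgp, hp₀, j, hj, hj0⟩ := IsCoord.exists_primitive hV.unif₀ g hg
    have hprim : ∃ i, A₀.valuation (p₀.coeff i) = 1 :=
      ⟨j, (change_val_eq_one_iff _ _).2 ⟨hp₀ j, hj, hj0⟩⟩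
    have hne : aeval x p₀ ≠ 0 := by
      intro h
      have h2 := change_valuation_aeval_eq_one (hx c₀) (hV.const_mem c₀) hp₀ hprim
      rw [h, map_zero] at h2
      exact zero_ne_one h2
    have hone : W.valuation (aeval x p₀) = 1 := (change_val_eq_one_iff _ _).2
      ⟨change_aeval_mem A₀ W hW0 hWx hp₀, hWd p₀ hp₀ hprim, hne⟩
    rw [hgp, map_mul, aeval_C, map_mul, hone, mul_one] at hlt
    rw [hgp, coeff_C_mul, map_mul, map_mul]
    exact lt_of_le_of_lt (mul_le_of_le_one_right' ((W.valuation_le_one_iff _).2 (hW0 _ (hp₀ i)))) hlt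
  -- (ii) the residue of `x₁` at `W` is transcendental
  have hx₁W : IsMCoord (W.comap (algebraMap K₀ F)) W x₁ :=
    change_isMCoord_of_mem_chart (W.comap (algebraMap K₀ F)) W (fun a ha => ha)
      (fun a _ h => (change_comap_val_lt_one W a).1 h) hxW hWx₁ (chart_mono hle x₁ h3)
  -- (iv) `K₀(x₁) ∩ ⋂ V c ⊆ W`
  have hG : ∀ z ∈ K₀⟮x₁⟯, z ∈ V c₀ → z ∈ W := by
    intro z hz hzV
    obtain ⟨p, d, hp, hd, ⟨i, hi⟩, hzd⟩ :=
      change_exists_frac hV.unif₀ (hx₁ c₀) (hV.const_mem c₀) (hV.lt_one c₀) hz hzV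
    have hi' : (W.comap (algebraMap K₀ F)).valuation (d.coeff i) = 1 := by
      obtain ⟨h4, h5, h6⟩ := (change_val_eq_one_iff _ _).1 hi
      exact (change_val_eq_one_iff _ _).2 ⟨hle h4, hle h5, h6⟩
    have hd1 : W.valuation (aeval x₁ d) = 1 :=
      change_valuation_aeval_eq_one hx₁W (fun a ha => ha) (fun i => hle (hd i)) ⟨i, hi'⟩
    rw [← W.valuation_le_one_iff]
    have h7 := congrArg W.valuation hzd
    rw [map_mul, hd1, mul_one] at h7
    rw [h7, W.valuation_le_one_iff]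
    exact change_aeval_mem A₀ W hW0 hWx₁ hp
  obtain ⟨p, hpm, hpc, hpy⟩ := hV.integral y hy
  exact change_mem_of_monic W p hpm (fun i => hG _ (p.coeff i).2 (hpc i c₀)) hpy

end CRDAux

variable {A₀ : ValuationSubring K₀} {ϖ₀ : K₀} {ι : Type*} {V : ι → ValuationSubring F}
variable {E : IntermediateField K₀ F} {x : F}

section CRD

variable {x₁ : F}

/-- the residue of `x` is transcendental as soon as `x₁` is integral over `A₀[x]`. -/
theorem IsMCoord.of_mem_chart {W : ValuationSubring F} (h₀ : IsUnif A₀ ϖ₀)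
    (hc : ∀ a ∈ A₀, algebraMap K₀ F a ∈ W) (hϖ : W.valuation (algebraMap K₀ F ϖ₀) < 1)
    (hx₁ : IsMCoord A₀ W x₁) (hxW : x ∈ W) (h1 : x₁ ∈ chart A₀.toSubring x) :
    IsMCoord A₀ W x := by
  refine change_isMCoord_of_mem_chart A₀ W hc (fun a ha hlt => ?_) hx₁ hxW h1
  rcases (change_val_lt_one_iff _ _).1 hlt with rfl | h
  · simp
  · have h2 : a / ϖ₀ ∈ A₀ := CoordAux.div_mem_of_inv_notMem h₀ h
    have h3 : a = ϖ₀ * (a / ϖ₀) := by
      have := CoordAux.unif_ne_zero h₀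
      field_simp
    rw [h3, map_mul, map_mul]
    exact lt_of_le_of_lt (mul_le_of_le_one_right' ((W.valuation_le_one_iff _).2 (hc _ h2))) hϖ

/-- **Change of coordinate.** -/
theorem IsMVert.change [Nonempty ι] (hV : IsMVert A₀ ϖ₀ V K₀⟮x₁⟯)
    (hx₁ : ∀ c, IsMCoord A₀ (V c) x₁) (h1 : x₁ ∈ chart A₀.toSubring x)
    (h3 : x ∈ chart A₀.toSubring x₁) : IsMVert A₀ ϖ₀ V K₀⟮x⟯ := by
  have hxV : ∀ c, x ∈ V c := fun c =>
    (mem_chart_iff_forall_valuationSubring _ _ _).1 h3 (V c) (hV.const_mem c) (hx₁ c).mem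
  have hx : ∀ c, IsMCoord A₀ (V c) x := fun c =>
    IsMCoord.of_mem_chart hV.unif₀ (hV.const_mem c) (hV.lt_one c) (hx₁ c) (hxV c) h1
  refine ⟨hV.unif₀, hV.const_mem, hV.lt_one,
    change_finite hV.finite (change_isIntegral_adjoin h1), fun y hy => ?_⟩
  let s : Set F := {z | (∃ a ∈ A₀, algebraMap K₀ F a = z) ∨ z = x ∨
    ∃ d : K₀[X], (∀ i, d.coeff i ∈ A₀) ∧ (∃ i, A₀.valuation (d.coeff i) = 1) ∧
      z = (aeval x d)⁻¹}
  have hsE : Subring.closure s ≤ K₀⟮x⟯.toSubring := by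
    rw [Subring.closure_le]
    rintro z (⟨a, -, rfl⟩ | rfl | ⟨d, -, -, rfl⟩)
    · exact K₀⟮x⟯.algebraMap_mem a
    · exact mem_adjoin_simple_self K₀ _
    · exact K₀⟮x⟯.inv_mem (change_aeval_mem_adjoin x d)
  have hsV : ∀ c, Subring.closure s ≤ (V c).toSubring := by
    intro c
    rw [Subring.closure_le]
    rintro z (⟨a, ha, rfl⟩ | rfl | ⟨d, hd, hd1, rfl⟩)
    · exact hV.const_mem c a ha
    · exact hxV c
    · exact ((change_val_eq_one_iff _ _).1
        (change_valuation_aeval_eq_one (hx c) (hV.const_mem c) hd hd1)).2.1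
  have hyint : IsIntegral (Subring.closure s) y := by
    have key := iInf_valuationSubring_superset (K := F) (s := s)
    have h4 : y ∈ (integralClosure (Subring.closure s) F).toSubring := by
      rw [← key, Subring.mem_iInf]
      rintro ⟨W, hW⟩
      exact change_claim hV hx₁ hx h1 h3 W (fun a ha => hW (Or.inl ⟨a, ha, rfl⟩))
        (hW (Or.inr (Or.inl rfl))) (fun d hd hd1 => hW (Or.inr (Or.inr ⟨d, hd, hd1, rfl⟩))) y hy
    exact h4
  obtain ⟨P, hPm, hP⟩ := hyint
  let φ : Subring.closure s →+* K₀⟮x⟯ :=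
    (Subring.closure s).subtype.codRestrict K₀⟮x⟯ (fun r => hsE r.2)
  refine ⟨P.map φ, hPm.map φ, fun i c => ?_, ?_⟩
  · rw [coeff_map]
    exact hsV c (P.coeff i).2
  · rw [aeval_def, eval₂_map]
    exact hP

theorem IsMVert.inv (hV : IsMVert A₀ ϖ₀ V K₀⟮x⟯) : IsMVert A₀ ϖ₀ V K₀⟮x⁻¹⟯ := by
  rw [adjoin_simple_inv_eq]
  exact hV

end CRD

end Fermat.Agent.BAD.LevelQ
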