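/-
Project BAD, block LevelQ, task LQ-CO (helper226): calculus of `IsMCoord`
(`x ∈ W` with residue transcendental over the residue field of `A₀`).
-/
import Mathlib
import Fermat.Agent.S18.Defs
import Fermat.Agent.S18.Chart.Unif
import Fermat.Agent.S18.Chart.Const
import Fermat.Agent.BAD.LevelQ.Defs

set_option autoImplicit false

noncomputable section

namespace Fermat.Agent.BAD.LevelQ

open Polynomial IntermediateField Fermat.Agent.S18

namespace CoordAux

section One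

variable {L : Type*} [Field L] {O : ValuationSubring L} {ϖ : L}

theorem valuation_unif_lt_one (h : IsUnif O ϖ) : O.valuation ϖ < 1 := by
  have h1 : O.valuation ϖ ≤ 1 := (O.valuation_le_one_iff _).mpr h.mem
  refine lt_of_le_of_ne h1 fun h2 => h.inv_notMem ?_
  rw [← O.valuation_le_one_iff, map_inv₀, h2, inv_one]

theorem div_mem_of_valuation_lt_one (h : IsUnif O ϖ) {y : L} (hy : O.valuation y < 1) :
    y / ϖ ∈ O := by
  rcases eq_or_ne y 0 with rfl | hy0
  · rw [zero_div]; exact O.zero_mem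
  refine h.div_mem ((O.valuation_le_one_iff _).mp hy.le) fun hinv => ?_
  rw [← O.valuation_le_one_iff, map_inv₀] at hinv
  have h0 : 0 < O.valuation y := zero_lt_iff.mpr ((Valuation.ne_zero_iff _).mpr hy0)
  rw [inv_le_one₀ h0] at hinv
  exact absurd hy (not_lt.mpr hinv)

theorem valuation_lt_one_of_div_mem {y : L} (h0 : ϖ ≠ 0) (hϖ : O.valuation ϖ < 1)
    (hy : y / ϖ ∈ O) : O.valuation y < 1 := by
  have h1 : y = y / ϖ * ϖ := by field_simp
  rw [h1, map_mul, mul_comm]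
  exact mul_lt_one_of_nonneg_of_lt_one_left zero_le hϖ ((O.valuation_le_one_iff _).mpr hy)

/-- every nonzero polynomial over the fraction field of a valuation ring can be scaled to a
primitive one. -/
theorem exists_scale_primitive (O : ValuationSubring L) (p : L[X]) (hp : p ≠ 0) :
    ∃ c : L, c ≠ 0 ∧ (∀ i, (C c * p).coeff i ∈ O) ∧ ∃ i, (C c * p).coeff i = 1 := by
  have hne : p.support.Nonempty := by rwa [Polynomial.nonempty_support_iff]
  obtain ⟨i₀, hi₀, hmax⟩ := Finset.exists_max_image p.support (fun i => O.valuation (p.coeff i)) hne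
  have hc0 : p.coeff i₀ ≠ 0 := Polynomial.mem_support_iff.mp hi₀
  refine ⟨(p.coeff i₀)⁻¹, inv_ne_zero hc0, fun i => ?_, i₀, ?_⟩
  · rw [coeff_C_mul]
    by_cases hi : p.coeff i = 0
    · rw [hi, mul_zero]; exact O.zero_mem
    · have h1 := hmax i (Polynomial.mem_support_iff.mpr hi)
      have h0 : 0 < O.valuation (p.coeff i₀) :=
        zero_lt_iff.mpr ((Valuation.ne_zero_iff _).mpr hc0)
      rw [← O.valuation_le_one_iff, map_mul, map_inv₀, inv_mul_le_iff₀ h0, mul_one]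
      exact h1
  · rw [coeff_C_mul, inv_mul_cancel₀ hc0]

end One

end CoordAux

open CoordAux

variable {K₀ F : Type*} [Field K₀] [Field F] [Algebra K₀ F]
variable {A₀ : ValuationSubring K₀} {ϖ₀ : K₀} {ι : Type*} {V : ι → ValuationSubring F}
variable {E : IntermediateField K₀ F} {x : F}

/-! ## LQ-CO : `BAD/LevelQ/Abs/Coord.lean` : calculus of `IsMCoord` -/
section COORD

variable {W : ValuationSubring F}

theorem IsMCoord.valuation_eq_one (hx : IsMCoord A₀ W x) : W.valuation x = 1 := by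
  have h1 : W.valuation x ≤ 1 := (W.valuation_le_one_iff _).mpr hx.mem
  refine le_antisymm h1 (not_lt.mp fun hlt => ?_)
  have h2 := hx.transc X (fun i => by
    rw [coeff_X]
    split_ifs
    · exact A₀.one_mem
    · exact A₀.zero_mem) (by rwa [aeval_X]) 1
  rw [coeff_X_one, map_one] at h2
  exact lt_irrefl _ h2

theorem IsMCoord.transcendental (hx : IsMCoord A₀ W x) : Transcendental K₀ x := by
  rw [transcendental_iff]
  intro p hp
  by_contra hp0
  obtain ⟨c, -, h1, i, hi⟩ := exists_scale_primitive A₀ p hp0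
  have h2 := hx.transc (C c * p) h1 (by rw [map_mul, hp, mul_zero, map_zero]; exact zero_lt_one) i
  rw [hi, map_one] at h2
  exact lt_irrefl _ h2

theorem IsMCoord.ne_zero (hx : IsMCoord A₀ W x) : x ≠ 0 := by
  intro h
  have := hx.valuation_eq_one
  rw [h, map_zero] at this
  exact zero_ne_one this

theorem CoordAux.aeval_reverse (hx0 : x ≠ 0) (p : K₀[X]) :
    aeval x p.reverse = aeval x⁻¹ p * x ^ p.natDegree := by
  have : Invertible x⁻¹ := invertibleOfNonzero (inv_ne_zero hx0)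
  have h := eval₂_reverse_mul_pow (algebraMap K₀ F) x⁻¹ p
  rw [invOf_eq_inv, inv_inv] at h
  rw [aeval_def, aeval_def, ← h, mul_assoc, ← mul_pow, inv_mul_cancel₀ hx0, one_pow, mul_one]

theorem IsMCoord.inv (hx : IsMCoord A₀ W x) : IsMCoord A₀ W x⁻¹ := by
  have hv := hx.valuation_eq_one
  refine ⟨?_, fun p hp hlt i => ?_⟩
  · rw [← W.valuation_le_one_iff, map_inv₀, hv, inv_one]
  · have h1 : ∀ i, p.reverse.coeff i ∈ A₀ := fun i => by rw [coeff_reverse]; exact hp _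
    have h2 : W.valuation (aeval x p.reverse) < 1 := by
      rw [CoordAux.aeval_reverse hx.ne_zero, map_mul, map_pow, hv, one_pow, mul_one]
      exact hlt
    have h3 := hx.transc p.reverse h1 h2 (revAt p.natDegree i)
    rwa [coeff_reverse, revAt_invol] at h3

theorem CoordAux.aeval_mem (hxW : x ∈ W) (hc : ∀ a ∈ A₀, algebraMap K₀ F a ∈ W) {p : K₀[X]}
    (hp : ∀ i, p.coeff i ∈ A₀) : aeval x p ∈ W := by
  rw [aeval_eq_sum_range]
  refine W.toSubring.sum_mem fun i _ => ?_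
  rw [Algebra.smul_def]
  exact mul_mem (hc _ (hp i)) (pow_mem hxW i)

/-- a primitive polynomial in `x` is a unit of `W`. -/
theorem IsMCoord.valuation_aeval_eq_one (hx : IsMCoord A₀ W x)
    (hc : ∀ a ∈ A₀, algebraMap K₀ F a ∈ W) {p : K₀[X]} (hp : ∀ i, p.coeff i ∈ A₀)
    (hp1 : ∃ i, A₀.valuation (p.coeff i) = 1) : W.valuation (aeval x p) = 1 := by
  have h1 : W.valuation (aeval x p) ≤ 1 :=
    (W.valuation_le_one_iff _).mpr (CoordAux.aeval_mem hx.mem hc hp)
  refine le_antisymm h1 (not_lt.mp fun hlt => ?_)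
  obtain ⟨i, hi⟩ := hp1
  have h2 := hx.transc p hp hlt i
  rw [hi] at h2
  exact lt_irrefl _ h2

/-- comparison with `S18.IsCoord`. -/
theorem IsMCoord.isCoord (h₀ : IsUnif A₀ ϖ₀) (hx : IsMCoord A₀ W x)
    (hϖ : W.valuation (algebraMap K₀ F ϖ₀) < 1) : IsCoord A₀ ϖ₀ W K₀⟮x⟯ x := by
  refine ⟨rfl, hx.mem, fun p hp hdiv i => ?_⟩
  have h0 : algebraMap K₀ F ϖ₀ ≠ 0 := (_root_.map_ne_zero _).mpr h₀.ne_zero
  exact div_mem_of_valuation_lt_one h₀
    (hx.transc p hp (valuation_lt_one_of_div_mem h0 hϖ hdiv) i)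

theorem isMCoord_of_isCoord (h₀ : IsUnif A₀ ϖ₀) (hU : IsUnif W (algebraMap K₀ F ϖ₀))
    (hx : IsCoord A₀ ϖ₀ W E x) : IsMCoord A₀ W x := by
  refine ⟨hx.mem, fun p hp hlt i => ?_⟩
  exact valuation_lt_one_of_div_mem h₀.ne_zero (valuation_unif_lt_one h₀)
    (hx.transc p hp (div_mem_of_valuation_lt_one hU hlt) i)

/-- `W ∩ K₀ = A₀`. -/
theorem CoordAux.mem_of_algebraMap_mem (h₀ : IsUnif A₀ ϖ₀)
    (hc : ∀ a ∈ A₀, algebraMap K₀ F a ∈ W) (hϖ : W.valuation (algebraMap K₀ F ϖ₀) < 1) {a : K₀}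
    (ha : algebraMap K₀ F a ∈ W) : a ∈ A₀ := by
  by_contra hna
  have ha0 : a ≠ 0 := by
    rintro rfl
    exact hna A₀.zero_mem
  have hinv : a⁻¹ ∈ A₀ := (A₀.mem_or_inv_mem a).resolve_left hna
  have h1 : a⁻¹ / ϖ₀ ∈ A₀ := h₀.div_mem hinv (by rwa [inv_inv])
  have h2 := hc _ h1
  rw [map_div₀, map_inv₀] at h2
  have h0 : algebraMap K₀ F ϖ₀ ≠ 0 := (_root_.map_ne_zero _).mpr h₀.ne_zero
  have h3 := valuation_lt_one_of_div_mem h0 hϖ h2
  have h4 : W.valuation (algebraMap K₀ F a) ≤ 1 := (W.valuation_le_one_iff _).mpr ha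
  have h5 : W.valuation ((algebraMap K₀ F a)⁻¹ * algebraMap K₀ F a) < 1 := by
    rw [map_mul]
    exact mul_lt_one_of_nonneg_of_lt_one_left zero_le h3 h4
  rw [inv_mul_cancel₀ ((_root_.map_ne_zero _).mpr ha0), map_one] at h5
  exact lt_irrefl _ h5

/-- Gauss lemma: `p(x) ∈ W` implies that `p` has coefficients in `A₀`. -/
theorem IsMCoord.gauss (h₀ : IsUnif A₀ ϖ₀) (hx : IsMCoord A₀ W x)
    (hc : ∀ a ∈ A₀, algebraMap K₀ F a ∈ W) (hϖ : W.valuation (algebraMap K₀ F ϖ₀) < 1)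
    (p : K₀[X]) (hp : aeval x p ∈ W) : ∀ i, p.coeff i ∈ A₀ := by
  intro i
  by_cases hp0 : p = 0
  · rw [hp0, coeff_zero]; exact A₀.zero_mem
  obtain ⟨c, hc0, h1, j, hj⟩ := exists_scale_primitive A₀ p hp0
  have h2 := hx.valuation_aeval_eq_one hc h1 ⟨j, by rw [hj, map_one]⟩
  rw [map_mul, aeval_C, map_mul] at h2
  have hcF : algebraMap K₀ F c ≠ 0 := (_root_.map_ne_zero _).mpr hc0
  have h3 : algebraMap K₀ F c⁻¹ ∈ W := by
    rw [← W.valuation_le_one_iff, map_inv₀, map_inv₀]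
    have h4 : (W.valuation (algebraMap K₀ F c))⁻¹ = W.valuation (aeval x p) := by
      exact inv_eq_of_mul_eq_one_right h2
    rw [h4]
    exact (W.valuation_le_one_iff _).mpr hp
  have h5 : c⁻¹ ∈ A₀ := CoordAux.mem_of_algebraMap_mem h₀ hc hϖ h3
  have h6 : p.coeff i = c⁻¹ * (C c * p).coeff i := by
    rw [coeff_C_mul, ← mul_assoc, inv_mul_cancel₀ hc0, one_mul]
  rw [h6]
  exact mul_mem h5 (h1 i)

/-- `K₀[x] ∩ W = A₀[x]`. -/
theorem IsMCoord.mem_polyRing (h₀ : IsUnif A₀ ϖ₀) (hx : IsMCoord A₀ W x)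
    (hc : ∀ a ∈ A₀, algebraMap K₀ F a ∈ W) (hϖ : W.valuation (algebraMap K₀ F ϖ₀) < 1) {z : F}
    (hz : z ∈ polyRing (⊤ : Subring K₀) x) (hzW : z ∈ W) : z ∈ polyRing A₀.toSubring x := by
  rw [mem_polyRing_iff] at hz ⊢
  obtain ⟨p, -, rfl⟩ := hz
  exact ⟨p, hx.gauss h₀ hc hϖ p hzW, rfl⟩

/-- the elements of `K₀(x) ∩ W` are the fractions `p(x) / d(x)`, `d` primitive. -/
theorem IsMCoord.exists_frac (h₀ : IsUnif A₀ ϖ₀) (hx : IsMCoord A₀ W x)
    (hc : ∀ a ∈ A₀, algebraMap K₀ F a ∈ W) (hϖ : W.valuation (algebraMap K₀ F ϖ₀) < 1) {z : F}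
    (hz : z ∈ K₀⟮x⟯) (hzW : z ∈ W) :
    ∃ p d : K₀[X], (∀ i, p.coeff i ∈ A₀) ∧ (∀ i, d.coeff i ∈ A₀) ∧
      (∃ i, A₀.valuation (d.coeff i) = 1) ∧ z * aeval x d = aeval x p := by
  obtain ⟨r, s, hrs⟩ := (IntermediateField.mem_adjoin_simple_iff K₀ z).mp hz
  by_cases hs : aeval x s = 0
  · -- then `z = 0`
    rw [hs, div_zero] at hrs
    refine ⟨0, 1, fun i => by rw [coeff_zero]; exact A₀.zero_mem, fun i => ?_, ⟨0, by simp⟩, ?_⟩
    · rw [coeff_one]
      split_ifs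
      · exact A₀.one_mem
      · exact A₀.zero_mem
    · rw [hrs, zero_mul, map_zero]
  · have hs0 : s ≠ 0 := by
      rintro rfl
      exact hs (map_zero _)
    obtain ⟨c, hc0, h1, j, hj⟩ := exists_scale_primitive A₀ s hs0
    have hzd : z * aeval x (C c * s) = aeval x (C c * r) := by
      rw [hrs, map_mul, map_mul]
      field_simp
    refine ⟨C c * r, C c * s, ?_, h1, ⟨j, by rw [hj, map_one]⟩, hzd⟩
    refine hx.gauss h₀ hc hϖ _ ?_
    rw [← hzd]
    exact mul_mem hzW (CoordAux.aeval_mem hx.mem hc h1)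

end COORD

end Fermat.Agent.BAD.LevelQ
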