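/-
Project BAD, block LevelQ, node LQ-MC2 (helper246): the chart is a finite module over `A₀[x]`
(generators in span form) and a noetherian ring, with minimal hypotheses (no vertical valuation
of `F`).  Generalises `S18/Chart/Finite.lean` (KLA-CH4).
-/
import Mathlib
import Fermat.Agent.S18.Defs
import Fermat.Agent.BAD.LevelQ.Defs
import Fermat.Agent.S18.Chart.Finite

set_option autoImplicit false
set_option linter.style.haveILetI false

noncomputable section

namespace Fermat.Agent.BAD.LevelQ

open Polynomial IntermediateField Fermat.Agent.S18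

variable {K₀ F : Type*} [Field K₀] [Field F] [Algebra K₀ F]
variable {A₀ : ValuationSubring K₀} {ϖ₀ : K₀} {ι : Type*} {V : ι → ValuationSubring F}
variable {E : IntermediateField K₀ F} {x : F}

/-- The chart is a finite module over `A₀[x]` (elementwise form) and noetherian. -/
theorem chart_finite_and_noeth [CharZero K₀] (h₀ : IsUnif A₀ ϖ₀) (htr : Transcendental K₀ x)
    [FiniteDimensional K₀⟮x⟯ F] :
    (∃ S : Finset F, (∀ e ∈ S, e ∈ chart A₀.toSubring x) ∧
      ∀ b ∈ chart A₀.toSubring x,
        b ∈ Submodule.span (polyRing A₀.toSubring x) (S : Set F)) ∧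
    IsNoetherianRing (chart A₀.toSubring x) := by
  classical
  haveI : CharZero F := charZero_of_injective_algebraMap (algebraMap K₀ F).injective
  set E' : IntermediateField K₀ F := K₀⟮x⟯ with hE'
  set A : Subring F := polyRing A₀.toSubring x with hA
  set B : Subring F := chart A₀.toSubring x with hB
  have hAB : A ≤ B := polyRing_le_chart _ _
  have hAE : ∀ y ∈ A, y ∈ E' := mem_of_mem_polyRing rfl _
  letI iAB : Algebra A B := (Subring.inclusion hAB).toAlgebra
  letI iAE : Algebra A E' := (RingHom.codRestrict A.subtype E' (fun y => hAE y y.2)).toAlgebra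
  haveI : IsScalarTower A B F := IsScalarTower.of_algebraMap_eq (fun _ => rfl)
  haveI : IsScalarTower A E' F := IsScalarTower.of_algebraMap_eq (fun _ => rfl)
  have injAE : Function.Injective (algebraMap A E') := fun a b h =>
    Subtype.ext (congrArg (fun e : E' => (e : F)) h)
  haveI : CharZero E' := ⟨fun a b h => Nat.cast_injective (R := F) (by
    have h1 := congrArg (algebraMap E' F) h
    rwa [map_natCast, map_natCast] at h1)⟩
  haveI : Algebra.IsSeparable E' F := inferInstance
  haveI : IsFractionRing A E' := Nor.isFractionRing_of_exists injAE (fun y => by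
    obtain ⟨a, ha, b, hb, hb0, e⟩ := exists_frac_polyRing h₀ (E := E') rfl y y.2
    exact ⟨⟨a, ha⟩, ⟨b, hb⟩, fun h => hb0 (congrArg Subtype.val h), Subtype.ext e⟩)
  haveI : IsIntegrallyClosed A := ChartFinite.isIntegrallyClosed_polyRing' htr
  haveI : IsNoetherianRing A := ChartFinite.isNoetherianRing_polyRing' h₀ htr
  haveI : IsIntegralClosure B A F :=
    ⟨Subtype.val_injective, fun {z} => ⟨fun h => ⟨⟨z, h⟩, rfl⟩, by
      rintro ⟨b, rfl⟩
      exact b.2⟩⟩
  haveI hfin : Module.Finite A B := IsIntegralClosure.finite A E' F B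
  refine ⟨?_, IsNoetherianRing.of_finite A B⟩
  obtain ⟨s, hs⟩ := hfin.fg_top
  refine ⟨s.image Subtype.val, ?_, fun b hb => ?_⟩
  · intro e he
    obtain ⟨e', -, rfl⟩ := Finset.mem_image.mp he
    exact e'.2
  · have hmem : (⟨b, hb⟩ : B) ∈ Submodule.span A (s : Set B) := hs ▸ Submodule.mem_top
    have key : ∀ z : B, z ∈ Submodule.span A (s : Set B) →
        (z : F) ∈ Submodule.span A ((s.image Subtype.val : Finset F) : Set F) := by
      intro z hz
      induction hz using Submodule.span_induction with
      | mem e he => exact Submodule.subset_span (by simpa using he)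
      | zero => exact Submodule.zero_mem _
      | add a b _ _ ha hb => exact Submodule.add_mem _ ha hb
      | smul r z _ hz => exact Submodule.smul_mem _ r hz
    exact key _ hmem

/-- the chart is a finite module over `A₀[x]`, with generators in the chart. -/
theorem chart_fin [CharZero K₀] (h₀ : IsUnif A₀ ϖ₀) (hx : Transcendental K₀ x)
    [FiniteDimensional K₀⟮x⟯ F] :
    ∃ S : Finset F, (∀ e ∈ S, e ∈ chart A₀.toSubring x) ∧
      ∀ b ∈ chart A₀.toSubring x, b ∈ Submodule.span (A₀.toSubring.map (algebraMap K₀ F))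
        {y : F | ∃ (a : ℕ) (e : F), e ∈ S ∧ y = x ^ a * e} := by
  obtain ⟨⟨S, hS, hspan⟩, -⟩ := chart_finite_and_noeth h₀ hx
  exact ⟨S, hS, fun b hb => ChartFinite.mem_span_pow_mul' _ S (hspan b hb)⟩

theorem chart_noeth [CharZero K₀] (h₀ : IsUnif A₀ ϖ₀) (hx : Transcendental K₀ x)
    [FiniteDimensional K₀⟮x⟯ F] : IsNoetherianRing (chart A₀.toSubring x) :=
  (chart_finite_and_noeth h₀ hx).2

end Fermat.Agent.BAD.LevelQ
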