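/-
Project BAD, block LevelQ, node LQ-LAT1: the lattice lemma.  Owner: helper159.
-/
import Mathlib
import Fermat.Agent.S18.Defs
import Fermat.Agent.S18.Chart.Unif
import Fermat.Agent.BAD.LevelQ.Defs

set_option autoImplicit false

noncomputable section

namespace Fermat.Agent.BAD.LevelQ

open Polynomial IntermediateField Fermat.Agent.S18

section LAT

variable {E F : Type*} [Field E] [Field F] [Algebra E F]
  {R : ValuationSubring E} {ϖ : E} {ι : Type*} {V : ι → ValuationSubring F} {n : ℕ}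

/-- scaling a finite family: not all zero => after division by a power of `ϖ` all are integral and
one is a unit. -/
theorem exists_scale (hR : IsUnif R ϖ) (a : Fin n → E) (ha : ∃ j, a j ≠ 0) :
    ∃ m : ℤ, (∀ j, a j / ϖ ^ m ∈ R) ∧ ∃ j, a j / ϖ ^ m / ϖ ∉ R := by
  classical
  have hϖ : ϖ ≠ 0 := hR.ne_zero
  have h1 : ∀ j, ∃ e : ℤ, a j ≠ 0 → (a j / ϖ ^ e ∈ R ∧ (a j / ϖ ^ e)⁻¹ ∈ R) := by
    intro j
    by_cases hj : a j = 0
    · exact ⟨0, fun h => absurd hj h⟩
    · obtain ⟨e, he⟩ := hR.exists_zpow (a j) hj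
      exact ⟨e, fun _ => he⟩
  choose e he using h1
  obtain ⟨j₁, hj₁⟩ := ha
  have hne : (Finset.univ.filter fun j => a j ≠ 0).Nonempty :=
    ⟨j₁, by simp [hj₁]⟩
  obtain ⟨j₀, hj₀, hmin⟩ := Finset.exists_min_image _ e hne
  have hj₀' : a j₀ ≠ 0 := (Finset.mem_filter.1 hj₀).2
  refine ⟨e j₀, fun j => ?_, j₀, ?_⟩
  · by_cases hj : a j = 0
    · rw [hj, zero_div]
      exact R.zero_mem
    · have hle : e j₀ ≤ e j := hmin j (by simp [hj])
      have h2 : a j / ϖ ^ e j₀ = a j / ϖ ^ e j * ϖ ^ (e j - e j₀) := by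
        rw [zpow_sub₀ hϖ]
        field_simp
      rw [h2]
      exact R.mul_mem _ _ (he j hj).1 (hR.zpow_mem (by omega))
  · intro h
    have h0 : a j₀ / ϖ ^ e j₀ ≠ 0 := div_ne_zero hj₀' (zpow_ne_zero _ hϖ)
    exact hR.not_both h0 h (he j₀ hj₀').2

/-- auxiliary: effect of the scaling on the linear combination -/
theorem lattice_sum_scale (a : Fin n → E) (Y : Fin n → F) (m : ℤ) :
    ∑ j, algebraMap E F (a j / ϖ ^ m) * Y j =
      (∑ j, algebraMap E F (a j) * Y j) * algebraMap E F (ϖ ^ (-m)) := by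
  rw [Finset.sum_mul]
  refine Finset.sum_congr rfl fun j _ => ?_
  rw [zpow_neg, div_eq_mul_inv, map_mul]
  ring

/-- **Lattice lemma.** -/
theorem lattice_of_ind [FiniteDimensional E F] [Nonempty ι] (hR : IsUnif R ϖ)
    (hRV : ∀ c, ∀ r ∈ R, algebraMap E F r ∈ V c)
    (hn : Module.finrank E F ≤ n) (Y : Fin n → F)
    (hind : ∀ a : Fin n → E, (∀ j, a j ∈ R) →
      (∀ c, (∑ j, algebraMap E F (a j) * Y j) / algebraMap E F ϖ ∈ V c) → ∀ j, a j / ϖ ∈ R)
    (y : F) (hy : ∀ c, y ∈ V c) :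
    ∃ a : Fin n → E, (∀ j, a j ∈ R) ∧ y = ∑ j, algebraMap E F (a j) * Y j := by
  have hϖ : ϖ ≠ 0 := hR.ne_zero
  -- (1) linear independence
  have hli : LinearIndependent E Y := by
    rw [Fintype.linearIndependent_iff]
    intro g hg
    by_contra hcon
    have hex : ∃ j, g j ≠ 0 := by
      by_contra h
      exact hcon fun j => by
        by_contra hj
        exact h ⟨j, hj⟩
    obtain ⟨m, hm, j₀, hj₀⟩ := exists_scale hR g hex
    have hg' : ∑ j, algebraMap E F (g j) * Y j = 0 := by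
      rw [← hg]
      exact Finset.sum_congr rfl fun j _ => (Algebra.smul_def _ _).symm
    refine hj₀ (hind _ hm (fun c => ?_) j₀)
    rw [lattice_sum_scale, hg', zero_mul, zero_div]
    exact (V c).zero_mem
  -- (2) `Y` spans
  have hcard : Fintype.card (Fin n) = Module.finrank E F := by
    have h1 := hli.fintype_card_le_finrank
    rw [Fintype.card_fin] at h1 ⊢
    omega
  have hspan := hli.span_eq_top_of_card_eq_finrank' hcard
  have hymem : y ∈ Submodule.span E (Set.range Y) := by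
    rw [hspan]
    trivial
  obtain ⟨a, ha⟩ := (Submodule.mem_span_range_iff_exists_fun E).1 hymem
  have ha' : y = ∑ j, algebraMap E F (a j) * Y j := by
    rw [← ha]
    exact Finset.sum_congr rfl fun j _ => Algebra.smul_def _ _
  -- (3) the coefficients are integral
  refine ⟨a, ?_, ha'⟩
  by_cases hex : ∃ j, a j ≠ 0
  · obtain ⟨m, hm, j₀, hj₀⟩ := exists_scale hR a hex
    by_cases hm0 : 0 ≤ m
    · intro j
      have h2 : a j = a j / ϖ ^ m * ϖ ^ m := by
        field_simp
      rw [h2]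
      exact R.mul_mem _ _ (hm j) (hR.zpow_mem hm0)
    · exfalso
      refine hj₀ (hind _ hm (fun c => ?_) j₀)
      rw [lattice_sum_scale, ← ha', mul_div_assoc, ← map_div₀]
      refine (V c).mul_mem _ _ (hy c) (hRV c _ ?_)
      have h3 : ϖ ^ (-m) / ϖ = ϖ ^ (-m - 1) := by
        rw [zpow_sub_one₀ hϖ, div_eq_mul_inv]
      rw [h3]
      exact hR.zpow_mem (by omega)
  · intro j
    have : a j = 0 := by
      by_contra hj
      exact hex ⟨j, hj⟩
    rw [this]
    exact R.zero_mem

/-- a subring of `F` contained in a finitely generated `R`-module is integral over `R`. -/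
theorem integral_of_lattice (hRV : ∀ c, ∀ r ∈ R, algebraMap E F r ∈ V c) (Y : Fin n → F)
    (hY : ∀ j c, Y j ∈ V c)
    (hlat : ∀ y : F, (∀ c, y ∈ V c) →
      ∃ a : Fin n → E, (∀ j, a j ∈ R) ∧ y = ∑ j, algebraMap E F (a j) * Y j)
    (y : F) (hy : ∀ c, y ∈ V c) :
    ∃ p : E[X], p.Monic ∧ (∀ i, p.coeff i ∈ R) ∧ aeval y p = 0 := by
  let alg : Algebra R F := ((algebraMap E F).comp R.subtype).toAlgebra
  have halg : ∀ r : R, algebraMap R F r = algebraMap E F (r : E) := fun r => rfl
  let S : Subalgebra R F :=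
    { carrier := {z | ∀ c, z ∈ V c}
      mul_mem' := fun ha hb c => (V c).mul_mem _ _ (ha c) (hb c)
      add_mem' := fun ha hb c => (V c).add_mem _ _ (ha c) (hb c)
      algebraMap_mem' := fun r c => hRV c _ r.2 }
  have hS : S.toSubmodule = Submodule.span R (Set.range Y) := by
    apply le_antisymm
    · intro z hz
      obtain ⟨a, haR, rfl⟩ := hlat z hz
      refine Submodule.sum_mem _ fun j _ => ?_
      have : algebraMap E F (a j) * Y j = (⟨a j, haR j⟩ : R) • Y j := by
        rw [Algebra.smul_def, halg]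
      rw [this]
      exact Submodule.smul_mem _ _ (Submodule.subset_span ⟨j, rfl⟩)
    · rw [Submodule.span_le]
      rintro _ ⟨j, rfl⟩
      exact hY j
  have hfg : S.toSubmodule.FG := by
    rw [hS]
    exact Submodule.fg_span (Set.finite_range Y)
  obtain ⟨p, hp, hp0⟩ := IsIntegral.of_mem_of_fg S hfg y hy
  refine ⟨p.map R.subtype, hp.map _, fun i => ?_, ?_⟩
  · rw [coeff_map]
    exact (p.coeff i).2
  · rw [aeval_def, eval₂_map]
    exact hp0

end LAT

end Fermat.Agent.BAD.LevelQ
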