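/-
Project BAD, block LevelQ, node LQ-MC1: the chart `chart A₀ x` (integral closure of `A₀[x]`) is the
intersection of the vertical valuation rings `V c` with the generic chart `chart ⊤ x`.
Several-valuations version of `S18/Chart/Mem.lean`.   Statements: helper39; proofs: helper145.
-/
import Mathlib
import Fermat.Agent.S18.Defs
import Fermat.Agent.S18.Chart.Unif
import Fermat.Agent.S18.Chart.Const
import Fermat.Agent.S18.Chart.Coord
import Fermat.Agent.S18.Chart.Mem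
import Fermat.Agent.S18.Chart.Basic
import Fermat.Agent.BAD.LevelQ.Defs

set_option autoImplicit false

noncomputable section

namespace Fermat.Agent.BAD.LevelQ

open Polynomial IntermediateField Fermat.Agent.S18

variable {K₀ F : Type*} [Field K₀] [Field F] [Algebra K₀ F]
variable {A₀ : ValuationSubring K₀} {ϖ₀ : K₀} {ι : Type*} {V : ι → ValuationSubring F}
variable {E : IntermediateField K₀ F} {x : F}

namespace MemAux

variable {W : ValuationSubring F}

/-- values of integral polynomials lie in `W`. -/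
theorem aeval_mem (hc : ∀ a ∈ A₀, algebraMap K₀ F a ∈ W) (hx : x ∈ W) (p : K₀[X])
    (hp : ∀ i, p.coeff i ∈ A₀) : aeval x p ∈ W := by
  rw [aeval_eq_sum_range]
  refine W.sum_mem fun i _ => ?_
  rw [Algebra.smul_def]
  exact W.mul_mem _ _ (hc _ (hp i)) (W.pow_mem hx i)

/-- a primitive polynomial in `x` is a unit of `W`. -/
theorem valuation_aeval_primitive (hx : IsMCoord A₀ W x) (hc : ∀ a ∈ A₀, algebraMap K₀ F a ∈ W)
    (p₀ : K₀[X]) (h1 : ∀ i, p₀.coeff i ∈ A₀) (h2 : ∃ i, (p₀.coeff i)⁻¹ ∈ A₀ ∧ p₀.coeff i ≠ 0) :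
    W.valuation (aeval x p₀) = 1 := by
  have hle : W.valuation (aeval x p₀) ≤ 1 :=
    (W.valuation_le_one_iff _).mpr (aeval_mem hc hx.mem p₀ h1)
  refine le_antisymm hle (not_lt.mp fun hlt => ?_)
  obtain ⟨i, hi, hi0⟩ := h2
  have h3 := hx.transc p₀ h1 hlt i
  have h4 : A₀.valuation (p₀.coeff i)⁻¹ ≤ 1 := (A₀.valuation_le_one_iff _).mpr hi
  rw [map_inv₀] at h4
  have h5 : A₀.valuation (p₀.coeff i) ≠ 0 := (A₀.valuation.ne_zero_iff).mpr hi0
  have h6 : (1 : A₀.ValueGroup) ≤ A₀.valuation (p₀.coeff i) := by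
    have := mul_le_mul_of_nonneg_right h4 (zero_le (a := A₀.valuation (p₀.coeff i)))
    rwa [inv_mul_cancel₀ h5, one_mul] at this
  exact absurd h3 (not_lt.mpr h6)

theorem transcendental (h₀ : IsUnif A₀ ϖ₀) (hx : IsMCoord A₀ W x)
    (hc : ∀ a ∈ A₀, algebraMap K₀ F a ∈ W) : Transcendental K₀ x := by
  rw [transcendental_iff]
  intro p hp
  by_contra hp0
  obtain ⟨n, p₀, hpp, h1, h2⟩ := IsCoord.exists_primitive h₀ p hp0
  have h3 := valuation_aeval_primitive hx hc p₀ h1 h2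
  have h4 : aeval x p₀ = 0 := by
    rw [hpp, map_mul, aeval_C] at hp
    rcases mul_eq_zero.mp hp with h | h
    · exfalso
      rw [map_eq_zero] at h
      exact zpow_ne_zero n h₀.ne_zero h
    · exact h
  rw [h4, map_zero] at h3
  exact zero_ne_one h3

/-- Gauss lemma: `K₀[x] ∩ W = A₀[x]`. -/
theorem gauss (h₀ : IsUnif A₀ ϖ₀) (hx : IsMCoord A₀ W x)
    (hc : ∀ a ∈ A₀, algebraMap K₀ F a ∈ W) (hϖ : W.valuation (algebraMap K₀ F ϖ₀) < 1)
    (p : K₀[X]) (hp : aeval x p ∈ W) : ∀ i, p.coeff i ∈ A₀ := by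
  intro i
  by_cases hp0 : p = 0
  · rw [hp0, coeff_zero]
    exact A₀.zero_mem
  obtain ⟨n, p₀, hpp, h1, h2⟩ := IsCoord.exists_primitive h₀ p hp0
  have h3 := valuation_aeval_primitive hx hc p₀ h1 h2
  have h4 : W.valuation (algebraMap K₀ F ϖ₀) ^ n ≤ 1 := by
    have := (W.valuation_le_one_iff _).mpr hp
    rwa [hpp, map_mul, aeval_C, map_mul, h3, mul_one, map_zpow₀, map_zpow₀] at this
  have hn : 0 ≤ n := by
    by_contra hlt
    push Not at hlt
    have hne : W.valuation (algebraMap K₀ F ϖ₀) ≠ 0 := by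
      rw [Valuation.ne_zero_iff, Ne, map_eq_zero]
      exact h₀.ne_zero
    obtain ⟨m, hm⟩ : ∃ m : ℕ, n = -((m : ℤ) + 1) := ⟨(-n - 1).toNat, by omega⟩
    rw [hm, zpow_neg, ← Nat.cast_succ, zpow_natCast] at h4
    have h5 : W.valuation (algebraMap K₀ F ϖ₀) ^ (m + 1) < 1 := pow_lt_one₀ zero_le hϖ (by omega)
    have h6 : W.valuation (algebraMap K₀ F ϖ₀) ^ (m + 1) ≠ 0 := pow_ne_zero _ hne
    have h7 := mul_le_mul_of_nonneg_right h4
      (zero_le (a := W.valuation (algebraMap K₀ F ϖ₀) ^ (m + 1)))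
    rw [inv_mul_cancel₀ h6, one_mul] at h7
    exact absurd h5 (not_lt.mpr h7)
  rw [hpp, coeff_C_mul]
  exact A₀.mul_mem _ _ (h₀.zpow_mem hn) (h1 i)

/-- The coefficients of the minimal polynomial over `E` of an element of `⋂ V c` lie in `⋂ V c`. -/
theorem coeff_minpoly_mem (hV : IsMVert A₀ ϖ₀ V E) {z : F} (hz : ∀ c, z ∈ V c) (c : ι) (i : ℕ) :
    ((minpoly E z).coeff i : F) ∈ V c := by
  let Ov : ValuationSubring E := (V c).comap (algebraMap E F)
  let _ : Algebra Ov F := ((algebraMap E F).comp Ov.subtype).toAlgebra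
  have : IsScalarTower Ov E F := IsScalarTower.of_algebraMap_eq fun _ => rfl
  obtain ⟨p, hpm, hpc, hpz⟩ := hV.integral z hz
  have hint : IsIntegral Ov z := by
    have hl : p ∈ Polynomial.lifts (algebraMap Ov E) := by
      rw [Polynomial.lifts_iff_coeff_lifts]
      intro j
      exact ⟨⟨p.coeff j, hpc j c⟩, rfl⟩
    obtain ⟨q, hq, -, hqm⟩ := Polynomial.lifts_and_natDegree_eq_and_monic hl hpm
    refine ⟨q, hqm, ?_⟩
    have h1 : eval₂ (algebraMap Ov F) z q = eval₂ (algebraMap E F) z (q.map (algebraMap Ov E)) := by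
      rw [eval₂_map, ← IsScalarTower.algebraMap_eq]
    rw [h1, hq]
    exact hpz
  rw [minpoly.isIntegrallyClosed_eq_field_fractions' E hint, coeff_map]
  exact ((minpoly Ov z).coeff i).2

end MemAux

theorem chart_le (hV : IsMVert A₀ ϖ₀ V E) (hx : ∀ c, x ∈ V c) (c : ι) :
    ∀ b ∈ chart A₀.toSubring x, b ∈ V c := by
  intro b hb
  rw [mem_chart_iff_isIntegral] at hb
  refine mem_Ow_of_isIntegral (fun r => ?_) hb
  obtain ⟨p, hp, hpr⟩ := (mem_polyRing_iff _ x _).mp r.2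
  change (r : F) ∈ V c
  rw [← hpr]
  exact MemAux.aeval_mem (hV.const_mem c) (hx c) p hp

theorem mem_chart_iff [Nonempty ι] (hV : IsMVert A₀ ϖ₀ V K₀⟮x⟯) (hx : ∀ c, IsMCoord A₀ (V c) x)
    (z : F) :
    z ∈ chart A₀.toSubring x ↔ (∀ c, z ∈ V c) ∧ z ∈ chart (⊤ : Subring K₀) x := by
  constructor
  · intro hz
    exact ⟨fun c => chart_le hV (fun c => (hx c).mem) c z hz, chart_mono le_top x hz⟩
  · rintro ⟨hzO, hzK⟩
    obtain ⟨c₀⟩ := ‹Nonempty ι›
    have hxT : Transcendental K₀ x := MemAux.transcendental hV.unif₀ (hx c₀) (hV.const_mem c₀)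
    have hz1 : IsIntegral (Algebra.adjoin K₀ {x}) z := isIntegral_adjoin_of_mem_chart_top hzK
    have := hV.finite
    have hzE : IsIntegral K₀⟮x⟯ z := Algebra.IsIntegral.isIntegral z
    have hcoeff : ∀ i, ((minpoly K₀⟮x⟯ z).coeff i : F) ∈ polyRing A₀.toSubring x := by
      intro i
      have ha := coeff_minpoly_mem_adjoin hxT hz1 K₀⟮x⟯ rfl i
      have hb := MemAux.coeff_minpoly_mem hV hzO c₀ i
      rw [Algebra.adjoin_singleton_eq_range_aeval] at ha
      obtain ⟨p, hp⟩ := ha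
      have hp' : aeval x p = ((minpoly K₀⟮x⟯ z).coeff i : F) := hp
      rw [mem_polyRing_iff]
      refine ⟨p, ?_, hp'⟩
      exact MemAux.gauss hV.unif₀ (hx c₀) (hV.const_mem c₀) (hV.lt_one c₀) p (hp' ▸ hb)
    rw [mem_chart_iff_isIntegral]
    have hl : (minpoly K₀⟮x⟯ z).map (algebraMap K₀⟮x⟯ F) ∈
        Polynomial.lifts (algebraMap (polyRing A₀.toSubring x) F) := by
      rw [Polynomial.lifts_iff_coeff_lifts]
      intro i
      rw [coeff_map]
      exact ⟨⟨_, hcoeff i⟩, rfl⟩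
    obtain ⟨q, hq, -, hqm⟩ :=
      Polynomial.lifts_and_natDegree_eq_and_monic hl ((minpoly.monic hzE).map _)
    refine ⟨q, hqm, ?_⟩
    rw [← eval_map, hq, eval_map]
    exact minpoly.aeval K₀⟮x⟯ z

theorem chart_qep [Nonempty ι] (hV : IsMVert A₀ ϖ₀ V K₀⟮x⟯) (hx : ∀ c, IsMCoord A₀ (V c) x)
    (y : F) (h : algebraMap K₀ F ϖ₀ * y ∈ chart A₀.toSubring x) (hy : ∀ c, y ∈ V c) :
    y ∈ chart A₀.toSubring x := by
  rw [mem_chart_iff hV hx]
  refine ⟨hy, ?_⟩
  have h0 : algebraMap K₀ F ϖ₀ ≠ 0 := by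
    rw [Ne, map_eq_zero]
    exact hV.unif₀.ne_zero
  have h1 : y = algebraMap K₀ F ϖ₀⁻¹ * (algebraMap K₀ F ϖ₀ * y) := by
    rw [map_inv₀, inv_mul_cancel_left₀ h0]
  rw [h1]
  exact mul_mem (ChartBasic.const_mem_chart_top _) ((mem_chart_iff hV hx _).mp h).2

end Fermat.Agent.BAD.LevelQ
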