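/-
Project BAD, block LevelQ, task LQ-MC3 (helper266): `V c` is a localisation of the chart
(several vertical valuations).
-/
import Mathlib
import Fermat.Agent.S18.Defs
import Fermat.Agent.S18.Chart.Unif
import Fermat.Agent.S18.Chart.Basic
import Fermat.Agent.BAD.LevelQ.Defs
import Fermat.Agent.BAD.LevelQ.Abs.Coord
import Fermat.Agent.BAD.LevelQ.Abs.Mem

set_option autoImplicit false
set_option linter.unusedVariables false

noncomputable section

namespace Fermat.Agent.BAD.LevelQ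

open Polynomial IntermediateField Fermat.Agent.S18

variable {K₀ F : Type*} [Field K₀] [Field F] [Algebra K₀ F]
variable {A₀ : ValuationSubring K₀} {ϖ₀ : K₀} {ι : Type*} {V : ι → ValuationSubring F}
variable {E : IntermediateField K₀ F} {x : F}

section LOC

namespace Loc

theorem valuation_eq_one_of_mem_of_inv_mem {L : Type*} [Field L] (W : ValuationSubring L) {a : L}
    (h1 : a ∈ W) (h2 : a⁻¹ ∈ W) (h0 : a ≠ 0) : W.valuation a = 1 := by
  have h3 := (W.valuation_le_one_iff _).2 h1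
  have h4 := (W.valuation_le_one_iff _).2 h2
  rw [map_inv₀] at h4
  have h5 : W.valuation a ≠ 0 := (Valuation.ne_zero_iff _).2 h0
  exact le_antisymm h3 ((inv_le_one₀ (zero_lt_iff.2 h5)).1 h4)

theorem mem_of_valuation_eq_one {L : Type*} [Field L] (W : ValuationSubring L) {a : L}
    (h : W.valuation a = 1) : a ∈ W := (W.valuation_le_one_iff _).1 h.le

/-- a non-unit raised to a large power clears the denominator of `y`. -/
theorem exists_pow_mul_mem {L : Type*} [Field L] {W : ValuationSubring L} {ϖ : L}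
    (hU : IsUnif W ϖ) {e : L} (he : W.valuation e < 1) (y : L) : ∃ k : ℕ, e ^ k * y ∈ W := by
  obtain ⟨r, hr⟩ := hU.exists_pow_mul_mem y
  refine ⟨r, ?_⟩
  have he' : e / ϖ ∈ W := by
    by_cases he0 : e = 0
    · rw [he0, zero_div]; exact W.zero_mem
    · refine hU.div_mem ((W.valuation_le_one_iff _).1 he.le) fun h => ?_
      have h1 := (W.valuation_le_one_iff _).2 h
      rw [map_inv₀] at h1
      have h2 : W.valuation e ≠ 0 := (Valuation.ne_zero_iff _).2 he0
      exact absurd he (not_lt.2 ((inv_le_one₀ (zero_lt_iff.2 h2)).1 h1))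
  have h1 : e ^ r * y = (e / ϖ) ^ r * (ϖ ^ r * y) := by
    rw [← mul_assoc, ← mul_pow, div_mul_cancel₀ _ hU.ne_zero]
  rw [h1]
  exact W.mul_mem _ _ (W.pow_mem he' r) hr

end Loc

open Loc

/-- clearing the horizontal denominators by a primitive polynomial. -/
theorem exists_primitive_mul_mem (h₀ : IsUnif A₀ ϖ₀) (hx : Transcendental K₀ x)
    [FiniteDimensional K₀⟮x⟯ F] (y : F) :
    ∃ d : K₀[X], (∀ i, d.coeff i ∈ A₀) ∧ (∃ i, A₀.valuation (d.coeff i) = 1) ∧
      aeval x d * y ∈ chart (⊤ : Subring K₀) x := by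
  obtain ⟨q, hq0, hq⟩ := ChartBasic.exists_mul_mem_chart_top (E := K₀⟮x⟯) inferInstance rfl y
  have hq' : q ≠ 0 := by
    rintro rfl
    exact hq0 (map_zero _)
  obtain ⟨n, p, hqp, h1, i, h2, h3⟩ := IsCoord.exists_primitive h₀ q hq'
  have hϖ := h₀.ne_zero
  refine ⟨p, h1, ⟨i, valuation_eq_one_of_mem_of_inv_mem A₀ (h1 i) h2 h3⟩, ?_⟩
  have h4 : aeval x p * y = algebraMap K₀ F (ϖ₀ ^ (-n)) * (aeval x q * y) := by
    rw [hqp, map_mul, aeval_C, ← mul_assoc, ← mul_assoc, ← map_mul, ← zpow_add₀ hϖ,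
      neg_add_cancel, zpow_zero, map_one, one_mul]
  rw [h4]
  exact mul_mem (ChartBasic.const_mem_chart_top _) hq

/-- separating elements inside the chart. -/
theorem exists_sep_chart [Nonempty ι] (hV : IsMVert A₀ ϖ₀ V K₀⟮x⟯)
    (hx : ∀ c, IsMCoord A₀ (V c) x) (hsep : IsSep V) (c c' : ι) (h : c ≠ c') :
    ∃ e ∈ chart A₀.toSubring x, (V c).valuation e = 1 ∧ (V c').valuation e < 1 := by
  obtain ⟨e, he, he1, he2⟩ := hsep c c' h
  have := hV.finite
  obtain ⟨d, hd, hd1, hde⟩ := exists_primitive_mul_mem hV.unif₀ (hx c).transcendental e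
  have hD : ∀ c'', (V c'').valuation (aeval x d) = 1 := fun c'' =>
    (hx c'').valuation_aeval_eq_one (hV.const_mem c'') hd hd1
  refine ⟨aeval x d * e, ?_, ?_, ?_⟩
  · rw [mem_chart_iff hV hx]
    exact ⟨fun c'' => (V c'').mul_mem _ _ (mem_of_valuation_eq_one _ (hD c'')) (he c''), hde⟩
  · rw [map_mul, hD, he1, one_mul]
  · rw [map_mul, hD, one_mul]
    exact he2

/-- `V c` is a localisation of the chart. -/
theorem chart_loc [Finite ι] [Nonempty ι] (hV : IsMVert A₀ ϖ₀ V K₀⟮x⟯)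
    (hx : ∀ c, IsMCoord A₀ (V c) x) (hsep : IsSep V) (hU : ∀ c, ∃ ϖ : F, IsUnif (V c) ϖ) (c : ι) :
    ∀ y ∈ V c, ∃ s ∈ chart A₀.toSubring x, (V c).valuation s = 1 ∧
      s * y ∈ chart A₀.toSubring x := by
  classical
  intro y hy
  have := Fintype.ofFinite ι
  have := hV.finite
  have hle : ∀ c'', ∀ b ∈ chart A₀.toSubring x, b ∈ V c'' := fun c'' =>
    chart_le hV (fun d => (hx d).mem) c''
  -- the separating elements and their exponents
  have hex : ∀ c' : ι, ∃ e ∈ chart A₀.toSubring x, (V c).valuation e = 1 ∧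
      (c' ≠ c → e * y ∈ V c') := by
    intro c'
    by_cases hc : c' = c
    · exact ⟨1, one_mem _, map_one _, fun h => absurd hc h⟩
    · obtain ⟨e, he, he1, he2⟩ := exists_sep_chart hV hx hsep c c' (Ne.symm hc)
      obtain ⟨ϖ, hϖ⟩ := hU c'
      obtain ⟨k, hk⟩ := exists_pow_mul_mem hϖ he2 y
      exact ⟨e ^ k, pow_mem he k, by rw [map_pow, he1, one_pow], fun _ => hk⟩
  choose e he he1 he2 using hex
  set s₀ : F := ∏ c' ∈ Finset.univ.erase c, e c' with hs₀
  have hs₀mem : s₀ ∈ chart A₀.toSubring x := Subring.prod_mem _ fun c' _ => he c'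
  have hs₀1 : (V c).valuation s₀ = 1 := by
    rw [hs₀, map_prod]
    exact Finset.prod_eq_one fun c' _ => he1 c'
  have hs₀y : ∀ c'', s₀ * y ∈ V c'' := by
    intro c''
    by_cases hc : c'' = c
    · subst hc
      exact (V c'').mul_mem _ _ (hle c'' _ hs₀mem) hy
    · have hmem : c'' ∈ Finset.univ.erase c := Finset.mem_erase.2 ⟨hc, Finset.mem_univ _⟩
      rw [hs₀, ← Finset.mul_prod_erase _ _ hmem, mul_right_comm]
      refine (V c'').mul_mem _ _ (he2 c'' hc) ?_
      exact hle c'' _ (Subring.prod_mem _ fun c' _ => he c')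
  obtain ⟨d, hd, hd1, hde⟩ := exists_primitive_mul_mem hV.unif₀ (hx c).transcendental (s₀ * y)
  have hD : ∀ c'', (V c'').valuation (aeval x d) = 1 := fun c'' =>
    (hx c'').valuation_aeval_eq_one (hV.const_mem c'') hd hd1
  refine ⟨aeval x d * s₀, mul_mem (ChartBasic.aeval_mem_chart d hd) hs₀mem, ?_, ?_⟩
  · rw [map_mul, hD, hs₀1, one_mul]
  · rw [mem_chart_iff hV hx, mul_assoc]
    exact ⟨fun c'' => (V c'').mul_mem _ _ (mem_of_valuation_eq_one _ (hD c'')) (hs₀y c''), hde⟩

end LOC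

end Fermat.Agent.BAD.LevelQ
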