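/-
Project BAD, block LevelQ, task LQ-RES: the special fibre of a good chart is integrally closed in
the residue field, `B / P = B' / ϖ'`, local parameters.
-/
import Mathlib
import Fermat.Agent.S18.Defs
import Fermat.Agent.S18.Chart.Unif
import Fermat.Agent.S18.Abs.Bridge2
import Fermat.Agent.BAD.LevelQ.Defs

set_option autoImplicit false

noncomputable section

namespace Fermat.Agent.BAD.LevelQ

open Polynomial IntermediateField Fermat.Agent.S18

namespace Residue

section aux

variable {K : Type*} [Field K]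

theorem val_lt_one_iff (A : ValuationSubring K) (z : K) :
    A.valuation z < 1 ↔ z = 0 ∨ z⁻¹ ∉ A := by
  by_cases hz : z = 0
  · simp [hz]
  · have h0 : 0 < A.valuation z := by
      rw [zero_lt_iff]
      exact (A.valuation.ne_zero_iff).2 hz
    rw [← A.valuation_le_one_iff, map_inv₀, not_le, one_lt_inv₀ h0]
    simp [hz]

theorem val_lt_one_of_div_mem {Ow : ValuationSubring K} {ϖ : K} (hU : IsUnif Ow ϖ) {z : K}
    (h : z / ϖ ∈ Ow) : Ow.valuation z < 1 := by
  rw [val_lt_one_iff]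
  by_cases hz : z = 0
  · exact Or.inl hz
  · exact Or.inr (hU.not_both hz h)

theorem div_mem_of_val_lt_one {Ow : ValuationSubring K} {ϖ : K} (hU : IsUnif Ow ϖ) {z : K}
    (h : Ow.valuation z < 1) : z / ϖ ∈ Ow := by
  have hz : z ∈ Ow := (Ow.valuation_le_one_iff z).1 h.le
  rcases (val_lt_one_iff Ow z).1 h with h0 | h0
  · rw [h0, zero_div]
    exact Ow.zero_mem
  · exact hU.div_mem hz h0

/-- a polynomial with integral coefficients is continuous for the valuation topology. -/
theorem val_eval_sub_lt_one (A : ValuationSubring K) (q : K[X]) (hq : ∀ i, q.coeff i ∈ A)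
    {a b : K} (ha : a ∈ A) (hb : b ∈ A) (hab : A.valuation (a - b) < 1) :
    A.valuation (q.eval a - q.eval b) < 1 := by
  have hsub : (↑q.coeffs : Set K) ⊆ A.toSubring := by
    intro c hc
    obtain ⟨i, -, rfl⟩ := Polynomial.mem_coeffs_iff.1 hc
    exact hq i
  set Q : A.toSubring[X] := q.toSubring A.toSubring hsub with hQ
  have hmap : Q.map A.toSubring.subtype = q := Polynomial.map_toSubring q A.toSubring hsub
  have hev : ∀ c : A.toSubring, q.eval (c : K) = ((Q.eval c : A.toSubring) : K) := by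
    intro c
    conv_lhs => rw [← hmap]
    rw [Polynomial.eval_map]
    exact (Polynomial.hom_eval₂ Q (RingHom.id _) A.toSubring.subtype c).symm ▸ by
      simp [Polynomial.eval₂_eq_eval_map]
  obtain ⟨c, hc⟩ := Polynomial.sub_dvd_eval_sub (⟨a, ha⟩ : A.toSubring) ⟨b, hb⟩ Q
  have h1 : q.eval a - q.eval b = (a - b) * (c : K) := by
    rw [hev ⟨a, ha⟩, hev ⟨b, hb⟩]
    exact congrArg Subtype.val hc
  rw [h1, map_mul]
  have hc1 : A.valuation (c : K) ≤ 1 := (A.valuation_le_one_iff _).2 c.2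
  calc A.valuation (a - b) * A.valuation (c : K) ≤ A.valuation (a - b) * 1 :=
        mul_le_mul_right hc1 _
    _ < 1 := by rwa [mul_one]

/-- rational root theorem in an integrally closed domain, homogeneous form. -/
theorem exists_eq_mul_of_homog {R : Type*} [CommRing R] [IsDomain R] [IsIntegrallyClosed R]
    (P : R[X]) (hP : P.Monic) {x z : R} (hz : z ≠ 0)
    (h : ∑ i ∈ Finset.range (P.natDegree + 1), P.coeff i * x ^ i * z ^ (P.natDegree - i) = 0) :
    ∃ w : R, x = w * z := by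
  have hzK : algebraMap R (FractionRing R) z ≠ 0 := by simpa using hz
  have hint : IsIntegral R (algebraMap R (FractionRing R) x / algebraMap R (FractionRing R) z) := by
    refine ⟨P, hP, ?_⟩
    have h2 : algebraMap R (FractionRing R) z ^ P.natDegree *
        Polynomial.eval₂ (algebraMap R (FractionRing R))
          (algebraMap R (FractionRing R) x / algebraMap R (FractionRing R) z) P = 0 := by
      rw [Polynomial.eval₂_eq_sum_range, Finset.mul_sum]
      have := congrArg (algebraMap R (FractionRing R)) h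
      rw [map_sum, map_zero] at this
      rw [← this]
      refine Finset.sum_congr rfl fun i hi => ?_
      have hi' : i ≤ P.natDegree := Nat.lt_succ_iff.1 (Finset.mem_range.1 hi)
      rw [map_mul, map_mul, map_pow, map_pow, div_pow]
      have : algebraMap R (FractionRing R) z ^ P.natDegree
          = algebraMap R (FractionRing R) z ^ (P.natDegree - i) *
            algebraMap R (FractionRing R) z ^ i := by
        rw [← pow_add, Nat.sub_add_cancel hi']
      rw [this]
      field_simp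
    exact (mul_eq_zero.1 h2).resolve_left (pow_ne_zero _ hzK)
  obtain ⟨w, hw⟩ := IsIntegrallyClosed.isIntegral_iff.1 hint
  refine ⟨w, ?_⟩
  apply IsFractionRing.injective R (FractionRing R)
  rw [map_mul, hw, div_mul_cancel₀ _ hzK]

end aux

end Residue

variable {K₀ F : Type*} [Field K₀] [Field F] [Algebra K₀ F]

section RES

variable {F' : Type*} [Field F'] {Ow' : ValuationSubring F'} {ϖ' : F'} {B' : Subring F'}

/-- the special fibre of a good chart is integrally closed in the residue field. -/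
theorem IsChart.exists_congr_of_integral (hU : IsUnif Ow' ϖ') (hC : IsChart Ow' ϖ' B') {y : F'}
    (hy : y ∈ Ow') (p : F'[X]) (hp : p.Monic) (hpB : ∀ i, p.coeff i ∈ B')
    (h : Ow'.valuation (p.eval y) < 1) : ∃ b ∈ B', Ow'.valuation (y - b) < 1 := by
  have hded := hC.ded ⟨ϖ', hC.unif_mem⟩ rfl
  have hϖ0 : ϖ' ≠ 0 := hU.ne_zero
  obtain ⟨b₂, hb₂, hb₂0, hb₂inv, hb₁⟩ := hC.loc y hy
  set π : B' := ⟨ϖ', hC.unif_mem⟩ with hπ
  set mk := Ideal.Quotient.mk (Ideal.span {π}) with hmk
  have hsub : (↑p.coeffs : Set F') ⊆ B' := by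
    intro c hc
    obtain ⟨i, -, rfl⟩ := Polynomial.mem_coeffs_iff.1 hc
    exact hpB i
  set P₀ : B'[X] := p.toSubring B' hsub with hP₀
  have hP₀m : P₀.Monic := (Polynomial.monic_toSubring p B' hsub).2 hp
  have hP₀c : ∀ i, ((P₀.coeff i : B') : F') = p.coeff i := fun i =>
    Polynomial.coeff_toSubring p B' hsub
  have hP₀d : P₀.natDegree = p.natDegree := Polynomial.natDegree_toSubring p B' hsub
  set P := P₀.map mk with hP
  have hPm : P.Monic := hP₀m.map mk
  have hPd : P.natDegree = p.natDegree := by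
    rw [hP, hP₀m.natDegree_map, hP₀d]
  -- membership criterion for `span {π}`
  have hmem : ∀ c : B', Ow'.valuation (c : F') < 1 → mk c = 0 := by
    intro c hc
    rw [hmk, Ideal.Quotient.eq_zero_iff_mem, Ideal.mem_span_singleton']
    have h1 : (c : F') / ϖ' ∈ B' := hC.qep _ c.2 (Residue.div_mem_of_val_lt_one hU hc)
    refine ⟨⟨_, h1⟩, Subtype.ext ?_⟩
    show (c : F') / ϖ' * ϖ' = c
    rw [div_mul_cancel₀ _ hϖ0]
  have hmem' : ∀ c : B', mk c = 0 → Ow'.valuation (c : F') < 1 := by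
    intro c hc
    rw [hmk, Ideal.Quotient.eq_zero_iff_mem, Ideal.mem_span_singleton'] at hc
    obtain ⟨a, ha⟩ := hc
    apply Residue.val_lt_one_of_div_mem hU
    have : (c : F') = a * ϖ' := (congrArg Subtype.val ha).symm
    rw [this, mul_div_assoc, div_self hϖ0, mul_one]
    exact hC.le _ a.2
  have hvb₂ : Ow'.valuation b₂ = 1 := by
    apply le_antisymm ((Ow'.valuation_le_one_iff _).2 (hC.le _ hb₂))
    by_contra hlt
    rw [not_le] at hlt
    rcases (Residue.val_lt_one_iff Ow' b₂).1 hlt with h0 | h0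
    · exact hb₂0 h0
    · exact h0 hb₂inv
  have hz : mk ⟨b₂, hb₂⟩ ≠ 0 := by
    intro h0
    have := hmem' _ h0
    rw [show ((⟨b₂, hb₂⟩ : B') : F') = b₂ from rfl, hvb₂] at this
    exact lt_irrefl _ this
  -- the homogeneous relation
  have hsum : ∑ i ∈ Finset.range (P.natDegree + 1),
      P.coeff i * mk ⟨b₂ * y, hb₁⟩ ^ i * mk ⟨b₂, hb₂⟩ ^ (P.natDegree - i) = 0 := by
    have h1 : ∑ i ∈ Finset.range (P.natDegree + 1),
        P.coeff i * mk ⟨b₂ * y, hb₁⟩ ^ i * mk ⟨b₂, hb₂⟩ ^ (P.natDegree - i)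
        = mk (∑ i ∈ Finset.range (P.natDegree + 1),
          P₀.coeff i * (⟨b₂ * y, hb₁⟩ : B') ^ i * (⟨b₂, hb₂⟩ : B') ^ (P.natDegree - i)) := by
      rw [map_sum]
      refine Finset.sum_congr rfl fun i _ => ?_
      rw [map_mul, map_mul, map_pow, map_pow, hP, Polynomial.coeff_map]
    rw [h1]
    apply hmem
    have h2 : ((∑ i ∈ Finset.range (P.natDegree + 1),
        P₀.coeff i * (⟨b₂ * y, hb₁⟩ : B') ^ i * (⟨b₂, hb₂⟩ : B') ^ (P.natDegree - i) : B') : F')
        = b₂ ^ p.natDegree * p.eval y := by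
      rw [Polynomial.eval_eq_sum_range, Finset.mul_sum, hPd]
      push_cast
      refine Finset.sum_congr rfl fun i hi => ?_
      have hi' : i ≤ p.natDegree := Nat.lt_succ_iff.1 (Finset.mem_range.1 hi)
      rw [hP₀c]
      have : b₂ ^ p.natDegree = b₂ ^ (p.natDegree - i) * b₂ ^ i := by
        rw [← pow_add, Nat.sub_add_cancel hi']
      rw [this, mul_pow]
      ring
    rw [h2, map_mul, map_pow, hvb₂, one_pow, one_mul]
    exact h
  obtain ⟨wbar, hw⟩ := Residue.exists_eq_mul_of_homog P hPm hz hsum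
  obtain ⟨w, rfl⟩ := Ideal.Quotient.mk_surjective wbar
  refine ⟨w, w.2, ?_⟩
  have h3 : mk (⟨b₂ * y, hb₁⟩ - w * ⟨b₂, hb₂⟩) = 0 := by
    rw [map_sub, map_mul]
    exact sub_eq_zero.2 hw
  have h4 := hmem' _ h3
  have h5 : ((⟨b₂ * y, hb₁⟩ - w * ⟨b₂, hb₂⟩ : B') : F') = b₂ * (y - w) := by
    push_cast
    ring
  rw [h5, map_mul, hvb₂, one_mul] at h4
  exact h4

/-- `B / P_W = B' / ϖ'` when `f = 1`. -/
theorem IsChart.exists_congr_map (hU : IsUnif Ow' ϖ') (hC : IsChart Ow' ϖ' B') (φ : F' →+* F)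
    (W : ValuationSubring F) (hφ : ∀ y', φ y' ∈ W ↔ y' ∈ Ow')
    (hdense : ∀ y ∈ W, ∃ y' ∈ Ow', W.valuation (y - φ y') < 1) {b : F} (hbW : b ∈ W)
    (p : F'[X]) (hp : p.Monic) (hpB : ∀ i, p.coeff i ∈ B') (h : (p.map φ).eval b = 0) :
    ∃ b' ∈ B', W.valuation (b - φ b') < 1 := by
  have hlt : ∀ z : F', W.valuation (φ z) < 1 ↔ Ow'.valuation z < 1 := by
    intro z
    rw [Residue.val_lt_one_iff, Residue.val_lt_one_iff, ← map_inv₀, hφ, map_eq_zero]
  obtain ⟨y', hy', hyb⟩ := hdense b hbW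
  have h1 : W.valuation ((p.map φ).eval b - (p.map φ).eval (φ y')) < 1 := by
    apply Residue.val_eval_sub_lt_one W (p.map φ) _ hbW ((hφ y').2 hy') hyb
    intro i
    rw [Polynomial.coeff_map]
    exact (hφ _).2 (hC.le _ (hpB i))
  rw [h, zero_sub, Valuation.map_neg, Polynomial.eval_map, Polynomial.eval₂_at_apply, hlt] at h1
  obtain ⟨b', hb', hyb'⟩ := IsChart.exists_congr_of_integral hU hC hy' p hp hpB h1
  refine ⟨b', hb', ?_⟩
  have h2 : b - φ b' = (b - φ y') + φ (y' - b') := by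
    rw [map_sub]; ring
  rw [h2]
  exact Valuation.map_add_lt _ hyb ((hlt _).2 hyb')

/-- local parameters on the special fibre. -/
theorem IsChart.exists_local_param (hU : IsUnif Ow' ϖ') (hC : IsChart Ow' ϖ' B') (𝔫 : Ideal B')
    [𝔫.IsMaximal] (h𝔫 : ∀ ϖB : B', (ϖB : F') = ϖ' → ϖB ∈ 𝔫) :
    ∃ t ∈ 𝔫, ∀ y ∈ 𝔫, ∃ r s : B', s ∉ 𝔫 ∧ Ow'.valuation ((s : F') * y - r * t) < 1 := by
  obtain ⟨t, ht, H⟩ := Fermat.Agent.S18.IsChart.regAt hC 𝔫 inferInstance (h𝔫 _ rfl)
  refine ⟨t, ht, fun y hy => ?_⟩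
  obtain ⟨s, hs, hsy⟩ := H y hy
  rw [Ideal.mem_span_pair] at hsy
  obtain ⟨a, r, har⟩ := hsy
  refine ⟨r, s, hs, ?_⟩
  have h1 : (s : F') * y - r * t = a * ϖ' := by
    have := congrArg Subtype.val har
    push_cast at this
    rw [← this]
    ring
  rw [h1]
  apply Residue.val_lt_one_of_div_mem hU
  rw [mul_div_assoc, div_self hU.ne_zero, mul_one]
  exact hC.le _ a.2

end RES

end Fermat.Agent.BAD.LevelQ
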