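/-
Project BAD, block LevelQ, node LQ-TOW (proofs by helper69): completeness of the list of vertical
valuations in a tower `K₀(x') ⊆ F' ⊆ F`.
-/
import Mathlib
import Fermat.Agent.S18.Defs
import Fermat.Agent.BAD.LevelQ.Defs

set_option autoImplicit false

noncomputable section

namespace Fermat.Agent.BAD.LevelQ

open Polynomial IntermediateField Fermat.Agent.S18

variable {K₀ F : Type*} [Field K₀] [Field F] [Algebra K₀ F]
variable {A₀ : ValuationSubring K₀} {ϖ₀ : K₀} {ι : Type*} {V : ι → ValuationSubring F}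
variable {E : IntermediateField K₀ F} {x : F}

section TOW

variable {F' : Type*} [Field F'] [Algebra K₀ F'] {Ow' : ValuationSubring F'} {x' : F'}

/-- a root of a monic polynomial with integral coefficients is integral. -/
theorem tow_isIntegral_of_monic_of_coeff {R₀ R : Type*} [CommRing R₀] [CommRing R] [Algebra R₀ R]
    (P : R[X]) (hP : P.Monic) (hc : ∀ n, IsIntegral R₀ (P.coeff n)) (z : R)
    (hz : P.eval z = 0) : IsIntegral R₀ z := by
  have h1 : P ∈ Polynomial.lifts (algebraMap (integralClosure R₀ R) R) := by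
    rw [Polynomial.lifts_iff_coeff_lifts]
    intro n
    exact ⟨⟨P.coeff n, hc n⟩, rfl⟩
  obtain ⟨q, hq, -, hqm⟩ := Polynomial.lifts_and_natDegree_eq_and_monic h1 hP
  refine isIntegral_trans (A := integralClosure R₀ R) z ⟨q, hqm, ?_⟩
  rw [Polynomial.eval₂_eq_eval_map, hq, hz]

theorem tow_valuation_lt_one {W : ValuationSubring F'} {ϖ : F'} (h : IsUnif W ϖ) :
    W.valuation ϖ < 1 := by
  by_contra hlt
  have h1 : W.valuation ϖ = 1 := le_antisymm ((W.valuation_le_one_iff ϖ).2 h.mem) (not_lt.1 hlt)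
  apply h.inv_notMem
  rw [← W.valuation_le_one_iff, map_inv₀, h1, inv_one]

/-- `S18.IsVert` is the case of one valuation. -/
theorem isMVert_of_isVert {E' : IntermediateField K₀ F'} (hV : IsVert A₀ ϖ₀ Ow' E') :
    IsMVert A₀ ϖ₀ (fun _ : Unit => Ow') E' where
  unif₀ := hV.unif₀
  const_mem := fun _ => hV.const_mem
  lt_one := fun _ => tow_valuation_lt_one hV.unif
  finite := hV.finite
  integral := fun y hy => by
    obtain ⟨p, hp, hc, h0⟩ := hV.integral y (hy ())
    exact ⟨p, hp, fun i _ => hc i, h0⟩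

theorem tow_map_mem (φ : F' →ₐ[K₀] F) {a : F'} (ha : a ∈ K₀⟮x'⟯) : φ a ∈ K₀⟮φ x'⟯ := by
  have h1 : (K₀⟮x'⟯).map φ = K₀⟮φ x'⟯ := by
    rw [IntermediateField.adjoin_map, Set.image_singleton]
  rw [← h1]
  exact (IntermediateField.mem_map _).2 ⟨a, ha, rfl⟩

theorem tow_finite (φ : F' →ₐ[K₀] F) (h1 : FiniteDimensional K₀⟮x'⟯ F')
    (hfin : letI := φ.toRingHom.toAlgebra; FiniteDimensional F' F) :
    FiniteDimensional K₀⟮φ x'⟯ F := by
  let _ : Algebra F' F := φ.toRingHom.toAlgebra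
  let _ : Algebra K₀⟮x'⟯ F := (φ.toRingHom.comp (algebraMap K₀⟮x'⟯ F')).toAlgebra
  have : IsScalarTower K₀⟮x'⟯ F' F := IsScalarTower.of_algebraMap_eq fun _ => rfl
  have : Module.Finite F' F := hfin
  have : Module.Finite K₀⟮x'⟯ F := Module.Finite.trans F' F
  let g : K₀⟮x'⟯ →+* K₀⟮φ x'⟯ :=
    (φ.toRingHom.comp (algebraMap K₀⟮x'⟯ F')).codRestrict K₀⟮φ x'⟯ fun a => tow_map_mem φ a.2
  let _ : Algebra K₀⟮x'⟯ K₀⟮φ x'⟯ := g.toAlgebra
  have : IsScalarTower K₀⟮x'⟯ K₀⟮φ x'⟯ F := IsScalarTower.of_algebraMap_eq fun _ => rfl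
  exact Module.Finite.of_restrictScalars_finite K₀⟮x'⟯ K₀⟮φ x'⟯ F

/-- If `Ow'` is the only vertical valuation of `F'` (relative to `K₀(x')`) and the `V c` are all
the valuations of `F` above `Ow'` (relative to `φ : F' → F`), then the `V c` are all the vertical
valuations of `F` relative to `K₀(φ x')`. -/
theorem isMVert_tower (φ : F' →ₐ[K₀] F) (hV' : IsVert A₀ ϖ₀ Ow' K₀⟮x'⟯)
    (hfin : letI := φ.toRingHom.toAlgebra; FiniteDimensional F' F)
    (hle : ∀ c, ∀ y ∈ Ow', φ y ∈ V c) (hlt : ∀ c, (V c).valuation (algebraMap K₀ F ϖ₀) < 1)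
    (hint : ∀ y : F, (∀ c, y ∈ V c) →
      ∃ p : F'[X], p.Monic ∧ (∀ i, p.coeff i ∈ Ow') ∧ (p.map φ.toRingHom).eval y = 0) :
    IsMVert A₀ ϖ₀ V K₀⟮φ x'⟯ where
  unif₀ := hV'.unif₀
  const_mem := fun c a ha => by
    rw [← φ.commutes]
    exact hle c _ (hV'.const_mem a ha)
  lt_one := hlt
  finite := tow_finite φ hV'.finite hfin
  integral := fun y hy => by
    let R₀ : Subring F := (K₀⟮φ x'⟯).toSubring ⊓ ⨅ c, (V c).toSubring
    have hR₀ : ∀ z : F, z ∈ R₀ ↔ z ∈ K₀⟮φ x'⟯ ∧ ∀ c, z ∈ V c := by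
      intro z
      simp only [R₀, Subring.mem_inf, Subring.mem_iInf]
      rfl
    -- the image of an element of `Ow'` is integral over `R₀`
    have hstep : ∀ c' ∈ Ow', IsIntegral R₀ (φ c') := by
      intro c' hc'
      obtain ⟨p, hp, hpc, hp0⟩ := hV'.integral c' hc'
      refine tow_isIntegral_of_monic_of_coeff
        ((p.map (algebraMap K₀⟮x'⟯ F')).map φ.toRingHom) ((hp.map _).map _) (fun n => ?_) _ ?_
      · rw [coeff_map, coeff_map]
        have hmem : φ.toRingHom (algebraMap K₀⟮x'⟯ F' (p.coeff n)) ∈ R₀ :=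
          (hR₀ _).2 ⟨tow_map_mem φ (p.coeff n).2, fun c => hle c _ (hpc n)⟩
        exact isIntegral_algebraMap (R := R₀) (A := F) (x := ⟨_, hmem⟩)
      · have h1 : (p.map (algebraMap K₀⟮x'⟯ F')).eval c' = 0 := by
          rw [eval_map_algebraMap]
          exact hp0
        have h2 := congrArg φ.toRingHom h1
        rw [map_zero, ← Polynomial.eval_map_apply] at h2
        exact h2
    obtain ⟨p, hp, hpc, hp0⟩ := hint y hy
    have hyint : IsIntegral R₀ y :=
      tow_isIntegral_of_monic_of_coeff (p.map φ.toRingHom) (hp.map _)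
        (fun n => by rw [coeff_map]; exact hstep _ (hpc n)) y hp0
    obtain ⟨q, hq, hq0⟩ := hyint
    let j : R₀ →+* K₀⟮φ x'⟯ := R₀.subtype.codRestrict K₀⟮φ x'⟯ fun z => ((hR₀ _).1 z.2).1
    refine ⟨q.map j, hq.map j, fun i c => ?_, ?_⟩
    · rw [coeff_map]
      exact ((hR₀ _).1 (q.coeff i).2).2 c
    · rw [aeval_def, eval₂_map]
      exact hq0

end TOW

end Fermat.Agent.BAD.LevelQ

end
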