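/-
Project BAD, block LevelQ, task LQ-LAT2: two valuations with `(e, f) = (1, 1), (1, d)`:
completeness, density of the residue fields, degree.
-/
import Mathlib
import Fermat.Agent.S18.Defs
import Fermat.Agent.S18.Chart.Unif
import Fermat.Agent.BAD.LevelQ.Defs
import Fermat.Agent.BAD.LevelQ.Abs.Lattice

set_option autoImplicit false

noncomputable section

namespace Fermat.Agent.BAD.LevelQ

open Polynomial IntermediateField Fermat.Agent.S18

namespace Two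

section aux

variable {F : Type*} [Field F] {W : ValuationSubring F} {ϖ : F}

theorem val_unif_lt_one (h : IsUnif W ϖ) : W.valuation ϖ < 1 := by
  have h1 : ¬ W.valuation ϖ⁻¹ ≤ 1 := fun hle => h.inv_notMem ((W.valuation_le_one_iff _).mp hle)
  rw [not_le, map_inv₀] at h1
  have h0 : W.valuation ϖ ≠ 0 := (_root_.map_ne_zero _).mpr h.ne_zero
  exact (one_lt_inv₀ (zero_lt_iff.mpr h0)).mp h1

theorem mem_of_lt_one {z : F} (h : W.valuation z < 1) : z ∈ W :=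
  (W.valuation_le_one_iff z).mp h.le

theorem lt_one_mul {a z : F} (ha : a ∈ W) (hz : W.valuation z < 1) : W.valuation (a * z) < 1 := by
  rw [map_mul]
  exact mul_lt_of_le_one_of_lt ((W.valuation_le_one_iff a).mpr ha) hz

theorem lt_one_add {a b : F} (ha : W.valuation a < 1) (hb : W.valuation b < 1) :
    W.valuation (a + b) < 1 := Valuation.map_add_lt _ ha hb

theorem lt_one_neg {a : F} (ha : W.valuation a < 1) : W.valuation (-a) < 1 := by
  rwa [Valuation.map_neg]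

theorem lt_one_sub {a b : F} (ha : W.valuation a < 1) (hb : W.valuation b < 1) :
    W.valuation (a - b) < 1 := by
  rw [sub_eq_add_neg]
  exact lt_one_add ha (lt_one_neg hb)

theorem lt_one_iff_div_mem (h : IsUnif W ϖ) (z : F) : W.valuation z < 1 ↔ z / ϖ ∈ W := by
  constructor
  · intro hz
    by_cases hz0 : z = 0
    · rw [hz0, zero_div]
      exact W.zero_mem
    refine h.div_mem (mem_of_lt_one hz) fun hinv => ?_
    have h1 := (W.valuation_le_one_iff _).mpr hinv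
    rw [map_inv₀] at h1
    have h0 : W.valuation z ≠ 0 := (_root_.map_ne_zero _).mpr hz0
    have := (inv_le_one₀ (zero_lt_iff.mpr h0)).mp h1
    exact absurd hz (not_lt.mpr this)
  · intro hz
    have e : z = z / ϖ * ϖ := by
      have := h.ne_zero
      field_simp
    rw [e]
    exact lt_one_mul hz (val_unif_lt_one h)

theorem lt_one_pow_sub_one {ε : F} (h : W.valuation (ε - 1) < 1) (r : ℕ) :
    W.valuation (ε ^ r - 1) < 1 := by
  have hε : ε ∈ W := by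
    have : ε = (ε - 1) + 1 := by ring
    rw [this]
    exact W.add_mem _ _ (mem_of_lt_one h) W.one_mem
  induction r with
  | zero => simp
  | succ r ih =>
    have e : ε ^ (r + 1) - 1 = ε ^ r * (ε - 1) + (ε ^ r - 1) := by ring
    rw [e]
    exact lt_one_add (lt_one_mul (W.pow_mem hε r) h) ih

theorem exists_mul_pow_mem (h : IsUnif W ϖ) {ε : F} (hε : W.valuation ε < 1) (y : F) :
    ∃ r : ℕ, y * ε ^ r ∈ W := by
  obtain ⟨r, hr⟩ := h.exists_pow_mul_mem y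
  refine ⟨r, ?_⟩
  have e : y * ε ^ r = ϖ ^ r * y * (ε / ϖ) ^ r := by
    have := h.ne_zero
    rw [div_pow]
    field_simp
  rw [e]
  exact W.mul_mem _ _ hr (W.pow_mem ((lt_one_iff_div_mem h ε).mp hε) r)

end aux

end Two

open Two

section TWO

variable {E F : Type*} [Field E] [Field F] [Algebra E F]
  {R : ValuationSubring E} {ϖ : E} {V₁ V₂ : ValuationSubring F}

/-- The hypotheses: `e ≡ 1 (V₁)`, `e ≡ 0 (V₂)`, and `1, θ, …, θ^(d-1)` are independent in the residue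
field of `V₂` over the residue field of `R`; `[F : E] ≤ d + 1`. -/
structure TwoHyp (R : ValuationSubring E) (ϖ : E) (V₁ V₂ : ValuationSubring F) (d : ℕ) (e θ : F) :
    Prop where
  unif : IsUnif R ϖ
  unif₁ : IsUnif V₁ (algebraMap E F ϖ)
  unif₂ : IsUnif V₂ (algebraMap E F ϖ)
  le₁ : ∀ r ∈ R, algebraMap E F r ∈ V₁
  le₂ : ∀ r ∈ R, algebraMap E F r ∈ V₂
  finite : FiniteDimensional E F
  finrank_le : Module.finrank E F ≤ d + 1
  e₁ : V₁.valuation (e - 1) < 1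
  e₂ : V₂.valuation e < 1
  θ₁ : θ ∈ V₁
  θ₂ : θ ∈ V₂
  ind : ∀ a : Fin d → E, (∀ i, a i ∈ R) →
    V₂.valuation (∑ i, algebraMap E F (a i) * θ ^ (i : ℕ)) < 1 → ∀ i, R.valuation (a i) < 1

variable {d : ℕ} {e θ : F}

namespace Two

/-- the basis `e, (1 - e), (1 - e) θ, …`. -/
def basisY (d : ℕ) (e θ : F) : Fin (d + 1) → F :=
  Fin.cons e fun i : Fin d => (1 - e) * θ ^ (i : ℕ)

/-- the polynomial part `∑ a_(i+1) θ^i`. -/
def tail (θ : F) (a : Fin (d + 1) → E) : F := ∑ i : Fin d, algebraMap E F (a i.succ) * θ ^ (i : ℕ)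

theorem sum_basisY (a : Fin (d + 1) → E) :
    ∑ j, algebraMap E F (a j) * basisY d e θ j =
      algebraMap E F (a 0) * e + (1 - e) * tail θ a := by
  rw [Fin.sum_univ_succ, tail, Finset.mul_sum]
  congr 1
  refine Finset.sum_congr rfl fun i _ => ?_
  simp only [basisY, Fin.cons_succ]
  ring

/-- the family of the two valuation rings. -/
def fam (V₁ V₂ : ValuationSubring F) : Bool → ValuationSubring F := fun b => cond b V₁ V₂

theorem forall_fam {P : ValuationSubring F → Prop} :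
    (∀ c, P (fam V₁ V₂ c)) ↔ P V₁ ∧ P V₂ := by
  rw [Bool.forall_bool]
  exact and_comm

end Two

theorem TwoHyp.e_mem₁ (H : TwoHyp R ϖ V₁ V₂ d e θ) : e ∈ V₁ := by
  have : e = (e - 1) + 1 := by ring
  rw [this]
  exact V₁.add_mem _ _ (mem_of_lt_one H.e₁) V₁.one_mem

theorem TwoHyp.e_mem₂ (H : TwoHyp R ϖ V₁ V₂ d e θ) : e ∈ V₂ := mem_of_lt_one H.e₂

theorem TwoHyp.one_sub₁ (H : TwoHyp R ϖ V₁ V₂ d e θ) : V₁.valuation (1 - e) < 1 := by
  rw [Valuation.map_sub_swap]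
  exact H.e₁

theorem TwoHyp.tail_mem₁ (H : TwoHyp R ϖ V₁ V₂ d e θ) {a : Fin (d + 1) → E} (ha : ∀ j, a j ∈ R) :
    tail θ a ∈ V₁ :=
  V₁.toSubring.sum_mem fun _ _ => V₁.mul_mem _ _ (H.le₁ _ (ha _)) (V₁.pow_mem H.θ₁ _)

theorem TwoHyp.tail_mem₂ (H : TwoHyp R ϖ V₁ V₂ d e θ) {a : Fin (d + 1) → E} (ha : ∀ j, a j ∈ R) :
    tail θ a ∈ V₂ :=
  V₂.toSubring.sum_mem fun _ _ => V₂.mul_mem _ _ (H.le₂ _ (ha _)) (V₂.pow_mem H.θ₂ _)

/-- modulo `𝔪(V₁)` the combination is `a 0`. -/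
theorem TwoHyp.congr₁ (H : TwoHyp R ϖ V₁ V₂ d e θ) {a : Fin (d + 1) → E} (ha : ∀ j, a j ∈ R) :
    V₁.valuation (∑ j, algebraMap E F (a j) * basisY d e θ j - algebraMap E F (a 0)) < 1 := by
  rw [sum_basisY]
  have e1 : algebraMap E F (a 0) * e + (1 - e) * tail θ a - algebraMap E F (a 0) =
      algebraMap E F (a 0) * (e - 1) + tail θ a * (1 - e) := by ring
  rw [e1]
  exact lt_one_add (lt_one_mul (H.le₁ _ (ha 0)) H.e₁) (lt_one_mul (H.tail_mem₁ ha) H.one_sub₁)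

/-- modulo `𝔪(V₂)` the combination is the polynomial part. -/
theorem TwoHyp.congr₂ (H : TwoHyp R ϖ V₁ V₂ d e θ) {a : Fin (d + 1) → E} (ha : ∀ j, a j ∈ R) :
    V₂.valuation (∑ j, algebraMap E F (a j) * basisY d e θ j - tail θ a) < 1 := by
  rw [sum_basisY]
  have e1 : algebraMap E F (a 0) * e + (1 - e) * tail θ a - tail θ a =
      algebraMap E F (a 0) * e - tail θ a * e := by ring
  rw [e1]
  exact lt_one_sub (lt_one_mul (H.le₂ _ (ha 0)) H.e₂) (lt_one_mul (H.tail_mem₂ ha) H.e₂)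

/-- an element of `R` which is a non-unit of `V₁` is a non-unit of `R`. -/
theorem TwoHyp.lt_one_of_lt_one₁ (H : TwoHyp R ϖ V₁ V₂ d e θ) {r : E} (hr : r ∈ R)
    (h : V₁.valuation (algebraMap E F r) < 1) : R.valuation r < 1 := by
  by_contra hcon
  have h1 : R.valuation r = 1 :=
    le_antisymm ((R.valuation_le_one_iff r).mpr hr) (not_lt.mp hcon)
  have hr0 : r ≠ 0 := by
    rintro rfl
    simp at h1
  have h2 : r⁻¹ ∈ R := by
    rw [← R.valuation_le_one_iff, map_inv₀, h1, inv_one]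
  have h3 := lt_one_mul (H.le₁ _ h2) h
  rw [← map_mul, inv_mul_cancel₀ hr0, map_one, map_one] at h3
  exact lt_irrefl _ h3

/-- the independence hypothesis of the lattice lemma. -/
theorem TwoHyp.ind' (H : TwoHyp R ϖ V₁ V₂ d e θ) (a : Fin (d + 1) → E) (ha : ∀ j, a j ∈ R)
    (h₁ : V₁.valuation (∑ j, algebraMap E F (a j) * basisY d e θ j) < 1)
    (h₂ : V₂.valuation (∑ j, algebraMap E F (a j) * basisY d e θ j) < 1) :
    ∀ j, a j / ϖ ∈ R := by
  have h0 : V₁.valuation (algebraMap E F (a 0)) < 1 := by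
    have := lt_one_sub h₁ (H.congr₁ ha)
    rwa [sub_sub_cancel] at this
  have ht : V₂.valuation (tail θ a) < 1 := by
    have := lt_one_sub h₂ (H.congr₂ ha)
    rwa [sub_sub_cancel] at this
  have hi := H.ind (fun i => a i.succ) (fun i => ha _) ht
  intro j
  rw [← lt_one_iff_div_mem H.unif]
  refine Fin.cases ?_ (fun i => ?_) j
  · exact H.lt_one_of_lt_one₁ (ha 0) h0
  · exact hi i

theorem TwoHyp.ind'' (H : TwoHyp R ϖ V₁ V₂ d e θ) (a : Fin (d + 1) → E) (ha : ∀ j, a j ∈ R)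
    (h : ∀ c, (∑ j, algebraMap E F (a j) * basisY d e θ j) / algebraMap E F ϖ ∈ fam V₁ V₂ c) :
    ∀ j, a j / ϖ ∈ R := by
  obtain ⟨h₁, h₂⟩ := (forall_fam (P := fun W =>
    (∑ j, algebraMap E F (a j) * basisY d e θ j) / algebraMap E F ϖ ∈ W)).mp h
  exact H.ind' a ha ((lt_one_iff_div_mem H.unif₁ _).mpr h₁) ((lt_one_iff_div_mem H.unif₂ _).mpr h₂)

theorem TwoHyp.le_fam (H : TwoHyp R ϖ V₁ V₂ d e θ) :
    ∀ c, ∀ r ∈ R, algebraMap E F r ∈ fam V₁ V₂ c :=
  (forall_fam (P := fun W => ∀ r ∈ R, algebraMap E F r ∈ W)).mpr ⟨H.le₁, H.le₂⟩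

/-- `V₁ ∩ V₂` is the lattice spanned by the basis. -/
theorem TwoHyp.lattice (H : TwoHyp R ϖ V₁ V₂ d e θ) (y : F) (h₁ : y ∈ V₁) (h₂ : y ∈ V₂) :
    ∃ a : Fin (d + 1) → E, (∀ j, a j ∈ R) ∧ y = ∑ j, algebraMap E F (a j) * basisY d e θ j := by
  have := H.finite
  exact lattice_of_ind (V := fam V₁ V₂) H.unif H.le_fam H.finrank_le (basisY d e θ) H.ind'' y
    ((forall_fam (P := fun W => y ∈ W)).mpr ⟨h₁, h₂⟩)

theorem TwoHyp.basisY_mem (H : TwoHyp R ϖ V₁ V₂ d e θ) (j : Fin (d + 1)) :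
    basisY d e θ j ∈ V₁ ∧ basisY d e θ j ∈ V₂ := by
  refine Fin.cases ?_ (fun i => ?_) j
  · exact ⟨H.e_mem₁, H.e_mem₂⟩
  · simp only [basisY, Fin.cons_succ]
    exact ⟨V₁.mul_mem _ _ (V₁.sub_mem V₁.one_mem H.e_mem₁) (V₁.pow_mem H.θ₁ _),
      V₂.mul_mem _ _ (V₂.sub_mem V₂.one_mem H.e_mem₂) (V₂.pow_mem H.θ₂ _)⟩

/-- completeness -/
theorem TwoHyp.integral (H : TwoHyp R ϖ V₁ V₂ d e θ) (y : F) (h₁ : y ∈ V₁) (h₂ : y ∈ V₂) :
    ∃ p : E[X], p.Monic ∧ (∀ i, p.coeff i ∈ R) ∧ aeval y p = 0 := by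
  refine integral_of_lattice (V := fam V₁ V₂) H.le_fam (basisY d e θ) (fun j => ?_) (fun z hz => ?_)
    y ((forall_fam (P := fun W => y ∈ W)).mpr ⟨h₁, h₂⟩)
  · exact (forall_fam (P := fun W => basisY d e θ j ∈ W)).mpr (H.basisY_mem j)
  · obtain ⟨hz₁, hz₂⟩ := (forall_fam (P := fun W => z ∈ W)).mp hz
    exact H.lattice z hz₁ hz₂

/-- `f = 1` at `V₁` -/
theorem TwoHyp.dense₁ (H : TwoHyp R ϖ V₁ V₂ d e θ) (y : F) (h₁ : y ∈ V₁) :
    ∃ r ∈ R, V₁.valuation (y - algebraMap E F r) < 1 := by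
  obtain ⟨k, hk⟩ := exists_mul_pow_mem H.unif₂ H.e₂ y
  obtain ⟨a, ha, hya⟩ := H.lattice (y * e ^ k) (V₁.mul_mem _ _ h₁ (V₁.pow_mem H.e_mem₁ k)) hk
  refine ⟨a 0, ha 0, ?_⟩
  have h3 := H.congr₁ ha
  rw [← hya] at h3
  have h4 : V₁.valuation (y * (e ^ k - 1)) < 1 := lt_one_mul h₁ (lt_one_pow_sub_one H.e₁ k)
  have e1 : y - algebraMap E F (a 0) = (y * e ^ k - algebraMap E F (a 0)) - y * (e ^ k - 1) := by
    ring
  rw [e1]
  exact lt_one_sub h3 h4

/-- the residue field of `V₂` is generated by `θ` -/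
theorem TwoHyp.dense₂ (H : TwoHyp R ϖ V₁ V₂ d e θ) (y : F) (h₂ : y ∈ V₂) :
    ∃ a : Fin d → E, (∀ i, a i ∈ R) ∧
      V₂.valuation (y - ∑ i, algebraMap E F (a i) * θ ^ (i : ℕ)) < 1 := by
  obtain ⟨k, hk⟩ := exists_mul_pow_mem H.unif₁ H.one_sub₁ y
  have hmem : (1 - e) ∈ V₂ := V₂.sub_mem V₂.one_mem H.e_mem₂
  obtain ⟨a, ha, hya⟩ := H.lattice (y * (1 - e) ^ k) hk (V₂.mul_mem _ _ h₂ (V₂.pow_mem hmem k))
  refine ⟨fun i => a i.succ, fun i => ha _, ?_⟩
  have h3 := H.congr₂ ha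
  rw [← hya] at h3
  have h5 : V₂.valuation ((1 - e) - 1) < 1 := by
    have : (1 - e) - 1 = -e := by ring
    rw [this]
    exact lt_one_neg H.e₂
  have h4 : V₂.valuation (y * ((1 - e) ^ k - 1)) < 1 := lt_one_mul h₂ (lt_one_pow_sub_one h5 k)
  have e1 : y - tail θ a = (y * (1 - e) ^ k - tail θ a) - y * ((1 - e) ^ k - 1) := by
    ring
  show V₂.valuation (y - tail θ a) < 1
  rw [e1]
  exact lt_one_sub h3 h4

theorem TwoHyp.linearIndependent (H : TwoHyp R ϖ V₁ V₂ d e θ) :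
    LinearIndependent E (basisY d e θ) := by
  rw [Fintype.linearIndependent_iff]
  intro g hg
  by_contra hcon
  push Not at hcon
  obtain ⟨m, hm, j, hj⟩ := exists_scale H.unif g hcon
  apply hj
  have hsum : ∑ j, algebraMap E F (g j / ϖ ^ m) * basisY d e θ j = 0 := by
    have : ∀ j, algebraMap E F (g j / ϖ ^ m) * basisY d e θ j =
        (algebraMap E F (ϖ ^ m))⁻¹ * (g j • basisY d e θ j) := by
      intro j
      rw [map_div₀, Algebra.smul_def]
      ring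
    rw [Finset.sum_congr rfl fun j _ => this j, ← Finset.mul_sum, hg, mul_zero]
  exact H.ind' _ hm (by rw [hsum, map_zero]; exact zero_lt_one)
    (by rw [hsum, map_zero]; exact zero_lt_one) j

theorem TwoHyp.finrank_eq (H : TwoHyp R ϖ V₁ V₂ d e θ) : Module.finrank E F = d + 1 := by
  have := H.finite
  refine le_antisymm H.finrank_le ?_
  have := H.linearIndependent.fintype_card_le_finrank
  simpa using this

end TWO

end Fermat.Agent.BAD.LevelQ
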