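/-
Project BAD, block LevelQ: completeness from `TwoHyp` (`V₁`, `V₂` are the only valuation rings above
`R`).  Owner helper287.
-/
import Fermat.Agent.BAD.LevelQ.Abs.Two
import Fermat.Agent.BAD.LevelQ.Abs.Change

set_option autoImplicit false

noncomputable section

namespace Fermat.Agent.BAD.LevelQ

open Polynomial Fermat.Agent.S18 Two

/-- a discrete valuation ring is a maximal proper subring. -/
theorem eq_of_le_of_inv_unif_notMem {F : Type*} [Field F] {V W : ValuationSubring F} {ϖ : F}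
    (h : IsUnif V ϖ) (hle : ∀ y ∈ V, y ∈ W) (hϖ : ϖ⁻¹ ∉ W) : W = V := by
  ext y
  refine ⟨fun hy => ?_, hle y⟩
  by_contra hyV
  have hy0 : y ≠ 0 := by
    rintro rfl
    exact hyV V.zero_mem
  have hϖ0 := h.ne_zero
  obtain ⟨n, hu, hu'⟩ := h.exists_zpow y hy0
  rcases le_or_gt 0 n with hn | hn
  · apply hyV
    have : y = y / ϖ ^ n * ϖ ^ n := by
      rw [div_mul_cancel₀ _ (zpow_ne_zero _ hϖ0)]
    rw [this]
    exact V.mul_mem _ _ hu (h.zpow_mem hn)
  · apply hϖ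
    -- `ϖ⁻¹ = ϖ ^ (-n - 1) * (y * (y / ϖ ^ n)⁻¹)`
    have h1 : ϖ⁻¹ = ϖ ^ (-n - 1) * (y * (y / ϖ ^ n)⁻¹) := by
      rw [inv_div, mul_div_assoc', mul_comm y, mul_div_assoc, div_self hy0, mul_one,
        ← zpow_add₀ hϖ0, show -n - 1 + n = -1 by ring, zpow_neg_one]
    rw [h1]
    exact W.mul_mem _ _ (hle _ (h.zpow_mem (by omega))) (W.mul_mem _ _ hy (hle _ hu'))

variable {E F : Type*} [Field E] [Field F] [Algebra E F]
  {R : ValuationSubring E} {ϖ : E} {V₁ V₂ : ValuationSubring F} {d : ℕ} {e θ : F}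

/-- **Completeness**: `V₁` and `V₂` are the only valuation rings of `F` above `R`. -/
theorem TwoHyp.complete (H : TwoHyp R ϖ V₁ V₂ d e θ) (W : ValuationSubring F)
    (hW : W.comap (algebraMap E F) = R) : W = V₁ ∨ W = V₂ := by
  have hO : ∀ y, y ∈ V₁ → y ∈ V₂ → y ∈ W := by
    intro y h1 h2
    obtain ⟨p, hp, hc, h0⟩ := H.integral y h1 h2
    refine change_mem_of_monic W p hp (fun i => ?_) h0
    have : p.coeff i ∈ W.comap (algebraMap E F) := hW ▸ hc i
    exact this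
  have hϖ : (algebraMap E F ϖ)⁻¹ ∉ W := by
    intro h
    apply H.unif.inv_notMem
    rw [← hW]
    show algebraMap E F ϖ⁻¹ ∈ W
    rwa [map_inv₀]
  have heW : e ∈ W := hO e H.e_mem₁ H.e_mem₂
  by_cases he : e⁻¹ ∈ W
  · left
    have he0 : e ≠ 0 := by
      rintro rfl
      have := H.e₁
      rw [zero_sub, Valuation.map_neg, map_one] at this
      exact lt_irrefl _ this
    refine eq_of_le_of_inv_unif_notMem H.unif₁ (fun y hy => ?_) hϖ
    obtain ⟨r, hr⟩ := exists_mul_pow_mem H.unif₂ H.e₂ y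
    have h1 : y * e ^ r ∈ W := hO _ (V₁.mul_mem _ _ hy (V₁.pow_mem H.e_mem₁ r)) hr
    have h2 : y = y * e ^ r * e⁻¹ ^ r := by
      rw [mul_assoc, ← mul_pow, mul_inv_cancel₀ he0, one_pow, mul_one]
    rw [h2]
    exact W.mul_mem _ _ h1 (W.pow_mem he r)
  · right
    have hlt : W.valuation e < 1 := by
      refine lt_of_le_of_ne ((W.valuation_le_one_iff _).2 heW) fun h1 => he ?_
      rw [← W.valuation_le_one_iff, map_inv₀, h1, inv_one]
    have h1e : W.valuation (1 - e) = 1 := Valuation.map_one_sub_of_lt _ hlt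
    have hinv : (1 - e)⁻¹ ∈ W := by
      rw [← W.valuation_le_one_iff, map_inv₀, h1e, inv_one]
    have h10 : (1 - e) ≠ 0 := by
      intro h
      rw [h, map_zero] at h1e
      exact zero_ne_one h1e
    refine eq_of_le_of_inv_unif_notMem H.unif₂ (fun y hy => ?_) hϖ
    obtain ⟨r, hr⟩ := exists_mul_pow_mem H.unif₁ H.one_sub₁ y
    have h1 : y * (1 - e) ^ r ∈ W :=
      hO _ hr (V₂.mul_mem _ _ hy (V₂.pow_mem (V₂.sub_mem V₂.one_mem H.e_mem₂) r))
    have h2 : y = y * (1 - e) ^ r * (1 - e)⁻¹ ^ r := by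
      rw [mul_assoc, ← mul_pow, mul_inv_cancel₀ h10, one_pow, mul_one]
    rw [h2]
    exact W.mul_mem _ _ h1 (W.pow_mem hinv r)

end Fermat.Agent.BAD.LevelQ


end
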